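/-
GATE-B (S38/S43) / node GB-B8-LEVELU (helper49): **the degeneracy maps at `q` commute with `U_r`**
(`r` a prime dividing `N`, `q` a prime not dividing `N`) on `Hom(Γ₀(·), A)`.

On main the four degeneracy maps `res resD : Hom(Γ₀(N), A) → Hom(Γ₀(N q), A)`,
`cores coresD : Hom(Γ₀(N q), A) → Hom(Γ₀(N), A)` and the Atkin–Lehner operator `w_q` commute with
`T_ℓ` for `ℓ ∤ N q` (GM/B/EquivCores, GM/B5/WT).  To remove SEVERAL Taylor–Wiles primes from the
level one after the other (GB/B8) one also needs the commutation with the operators `U_r` of the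
primes `r ∣ N` already in the level:

* `uSys_distinctMod`   : the cosets of `U_r` are pairwise distinct modulo any subgroup;
* `res_cohU`, `cores_cohU` : `res ∘ U_r = U_r ∘ res`, `cores ∘ U_r = U_r ∘ cores`;
* `wOp_cohU`           : `w_q ∘ U_r = U_r ∘ w_q` on `Hom(Γ₀(N q), A)`;
* `resD_cohU`, `coresD_cohU` : the same for the twisted degeneracy maps.

All by comparison of cosets (GM/B/System3, helper80's integer-matrix toolkit in GB/B3/CommGamma0).
-/
import Mathlib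
import Fermat.Agent.GB.B3.CommGamma0
import Fermat.Agent.GM.B5.WT

set_option autoImplicit false
set_option linter.unusedSectionVars false
set_option linter.unusedSimpArgs false
set_option linter.unreachableTactic false
set_option linter.unusedTactic false

open scoped MatrixGroups
open CongruenceSubgroup Matrix Matrix.SpecialLinearGroup ModularCurve.Period
open P2MW.S_ModularForm_heckeT_slash_eq_self_of_mem_Gamma0.ModularForm.HeckeSlashInvariance
open P2MW.S_ModularForm_heckeT_slash_eq_self_of_mem_Gamma0.ModularForm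
open Fermat.Agent.S16_helper49
open Fermat.Agent.GM.Amalgam
open Fermat.Agent.GM.B Fermat.Agent.GM.B5
open Fermat.Agent.GB.B3.CommGamma0
open ModularForm
open scoped OnePoint

namespace Fermat.Agent.GB.B8.LevelU

/-! ### distinctness of the cosets of `U_r` -/

section Distinct

variable {M r : ℕ} [NeZero r]

theorem uSys_a (hrM : r ∣ M) (x : ZMod r) :
    (uSys hrM).a x = heckeRep r ((x : ZMod r) : OnePoint (ZMod r)) := rfl

/-- the cosets `SL(2, ℤ) · α_x`, `x ∈ ℤ/r`, are pairwise distinct -/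
theorem uSys_distinctMod (hrM : r ∣ M) (Γ : Subgroup SL(2, ℤ)) : (uSys hrM).DistinctMod Γ := by
  rintro (x : ZMod r) (x' : ZMod r) γ h
  have hr : r ≠ 0 := NeZero.ne r
  have h1 : IsZ ((uSys hrM).a x) (ut 1 (x.val : ℤ) (r : ℤ)) :=
    isZ_heckeRep hr ((x : ZMod r) : OnePoint (ZMod r))
  have h2 : IsZ (embR ((γ : Γ) : SL(2, ℤ)) * (uSys hrM).a x')
      (((γ : Γ) : SL(2, ℤ)) * ut 1 (x'.val : ℤ) (r : ℤ)) :=
    (isZ_embR _).mul (isZ_heckeRep hr ((x' : ZMod r) : OnePoint (ZMod r)))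
  rw [← h] at h2
  obtain ⟨-, -, h3⟩ := ut_coset one_pos one_pos ((γ : Γ) : SL(2, ℤ)) (h1.inj h2)
  exact eq_of_dvd_val_sub x x' ⟨((γ : Γ) : SL(2, ℤ)) 0 1, by rw [h3]; ring⟩

theorem uSys_distinct (hrM : r ∣ M) : (uSys hrM).Distinct :=
  (uSys_distinctMod hrM (Gamma0 M)).distinct

end Distinct

variable {N q r : ℕ} [Fact q.Prime] [Fact r.Prime]

theorem ne_of_dvd_of_not_dvd (hqN : ¬ q ∣ N) (hrN : r ∣ N) : q ≠ r := fun h => hqN (h ▸ hrN)

theorem isCoprime_of_ne (hqr : q ≠ r) : IsCoprime (q : ℤ) (r : ℤ) :=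
  Nat.isCoprime_iff_coprime.mpr ((Nat.coprime_primes Fact.out Fact.out).mpr hqr)

theorem natCast_ne_zero_of_ne (hqr : q ≠ r) : (q : ZMod r) ≠ 0 := by
  intro h0
  have h1 : r ∣ q := (ZMod.natCast_eq_zero_iff q r).mp h0
  exact hqr ((Nat.prime_dvd_prime_iff_eq Fact.out Fact.out).mp h1).symm

variable {A : Type*} [AddCommGroup A]

/-! ### `res` -/

/-- **`res ∘ U_r = U_r ∘ res`** (`r ∣ N`) -/
theorem res_cohU (hrN : r ∣ N) (φ : Additive (Gamma0 N) →+ A) :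
    res A N q (cohU hrN A φ) = cohU (Dvd.dvd.mul_right hrN q) A (res A N q φ) := by
  rw [← uSys_op hrN, ← uSys_op (Dvd.dvd.mul_right hrN q)]
  unfold res
  rw [← CosetSys.op_comp, ← CosetSys.op_comp]
  refine CosetSys.op_eq_of_cosets ((resSys N q).comp (uSys (Dvd.dvd.mul_right hrN q)))
    ((uSys hrN).comp (resSys N q)) embR_injective
    (distinct_comp_single (uSys hrN) (uSys_distinct hrN) _ _ _)
    (Equiv.prodComm Unit (ZMod r)) 1 (fun x => by rw [one_mul, mul_one])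
    (fun _ => 1) ?_ φ
  rintro ⟨(u : Unit), (x : ZMod r)⟩
  refine (CosetSys.comp_a (uSys hrN) (resSys N q) x u).trans ?_
  refine Eq.trans ?_ (congrArg (fun t => 1 * embR (((1 : Gamma0 N)) : SL(2, ℤ)) * t)
    (CosetSys.comp_a (resSys N q) (uSys (Dvd.dvd.mul_right hrN q)) u x).symm)
  have h4 : (uSys (Dvd.dvd.mul_right hrN q)).a x = (uSys hrN).a x := rfl
  rw [h4]
  simp only [resSys_a, Subgroup.coe_one, map_one, one_mul, mul_one]

/-! ### `cores` -/

/-- **detection of `Γ₀(N q)`**: if `α_x h = c α_{x'}` (representatives of `T_r`) with `h ∈ Γ₀(N)`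
and `c ∈ Γ₀(N q)`, `q ≠ r`, then `h ∈ Γ₀(N q)` -/
theorem mem_Gamma0_mul_of_rel' (hqN : ¬ q ∣ N) (hqr : q ≠ r)
    (x x' : OnePoint (ZMod r)) (h c : SL(2, ℤ))
    (hrel : heckeRep r x * embR h = embR c * heckeRep r x')
    (hh : h ∈ Gamma0 N) (hc : c ∈ Gamma0 (N * q)) : h ∈ Gamma0 (N * q) := by
  obtain ⟨u, v, -, hv, huv⟩ := heckeRep_rel_lower x x' h c hrel
  have hcop := isCoprime_of_ne hqr
  have hcN : ((N * q : ℕ) : ℤ) ∣ c 1 0 := dvd_of_mem_Gamma0 (⟨c, hc⟩ : Gamma0 (N * q))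
  have hq : (q : ℤ) ∣ c 1 0 := by
    refine Dvd.dvd.trans ?_ hcN
    push_cast
    exact dvd_mul_left _ _
  have hq2 : (q : ℤ) ∣ v * h 1 0 := by rw [← huv]; exact Dvd.dvd.mul_right hq u
  have hq3 : (q : ℤ) ∣ h 1 0 := by
    rcases hv with rfl | rfl
    · simpa using hq2
    · exact hcop.dvd_of_dvd_mul_left hq2
  have hN : (N : ℤ) ∣ h 1 0 := dvd_of_mem_Gamma0 (⟨h, hh⟩ : Gamma0 N)
  have hNq : IsCoprime (N : ℤ) (q : ℤ) := by
    have hcopNat : Nat.Coprime q N := (Nat.Prime.coprime_iff_not_dvd Fact.out).mpr hqN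
    exact (Nat.isCoprime_iff_coprime.mpr hcopNat).symm
  apply mem_Gamma0_of_dvd
  push_cast
  exact hNq.mul_dvd hN hq3

/-- `U_r^{(N q)}` followed by `cores` has distinct cosets -/
theorem uSys_comp_coresSys'_distinct (hqN : ¬ q ∣ N) (hrN : r ∣ N) :
    ((uSys (Dvd.dvd.mul_right hrN q)).comp (coresSys' hqN)).Distinct := by
  refine CosetSys.comp_distinct_of_rel (uSys (Dvd.dvd.mul_right hrN q)) (coresSys' hqN)
    embR_injective Gamma0_mul_le (rC N q (bez hqN).1 (bez hqN).2 (bez_spec hqN))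
    (coresSys_a hqN _ _ _) (uSys_distinctMod (Dvd.dvd.mul_right hrN q) (Gamma0 N))
    (coresSys'_distinct hqN) ?_
  intro h (x : ZMod r)
  refine ⟨(sigU hrN h x : ZMod r), cU hrN h x, cU_rel hrN h x, ?_⟩
  intro hc
  exact mem_Gamma0_mul_of_rel' hqN (ne_of_dvd_of_not_dvd hqN hrN)
    ((x : ZMod r) : OnePoint (ZMod r)) ((sigU hrN h x : ZMod r) : OnePoint (ZMod r)) _ _
    (cU_rel hrN h x) h.2 hc

/-- `cores` followed by `U_r^{(N)}` has distinct cosets -/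
theorem coresSys'_comp_uSys_distinct (hqN : ¬ q ∣ N) (hrN : r ∣ N) :
    ((coresSys' hqN).comp (uSys hrN)).Distinct :=
  CosetSys.comp_distinct_of_inner (coresSys' hqN) (uSys hrN)
    Gamma0_mul_le (rC N q (bez hqN).1 (bez hqN).2 (bez_spec hqN)) (coresSys_a hqN _ _ _)
    (coresSys'_distinct hqN) (uSys_distinct hrN)

/-- **`cores ∘ U_r = U_r ∘ cores`** (`r ∣ N`, `q ∤ N`) -/
theorem cores_cohU (hqN : ¬ q ∣ N) (hrN : r ∣ N) (ψ : Additive (Gamma0 (N * q)) →+ A) :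
    cores A hqN (cohU (Dvd.dvd.mul_right hrN q) A ψ) = cohU hrN A (cores A hqN ψ) := by
  rw [← uSys_op hrN, ← uSys_op (Dvd.dvd.mul_right hrN q)]
  unfold cores
  rw [← CosetSys.op_comp, ← CosetSys.op_comp]
  symm
  refine CosetSys.op_eq_of_contained ((uSys (Dvd.dvd.mul_right hrN q)).comp (coresSys' hqN))
    ((coresSys' hqN).comp (uSys hrN)) embR_injective
    (uSys_comp_coresSys'_distinct hqN hrN) (coresSys'_comp_uSys_distinct hqN hrN)
    (Fintype.card_congr (Equiv.prodComm (ZMod r) (OnePoint (ZMod q))))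
    (fun p : ZMod r × OnePoint (ZMod q) =>
      (((coresSys' hqN).σ (cU hrN (rC N q (bez hqN).1 (bez hqN).2 (bez_spec hqN) p.2) p.1)
          (∞ : OnePoint (ZMod q)) : OnePoint (ZMod q)),
        (sigU hrN (rC N q (bez hqN).1 (bez hqN).2 (bez_spec hqN) p.2) p.1 : ZMod r)))
    1 (fun x => by rw [one_mul, mul_one])
    (fun p : ZMod r × OnePoint (ZMod q) =>
      ((coresSys' hqN).c (cU hrN (rC N q (bez hqN).1 (bez hqN).2 (bez_spec hqN) p.2) p.1)
          (∞ : OnePoint (ZMod q)))⁻¹)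
    ?_ ψ
  rintro ⟨(x : ZMod r), (y : OnePoint (ZMod q))⟩
  have h1 := cU_rel hrN (rC N q (bez hqN).1 (bez hqN).2 (bez_spec hqN) y) x
  have h2 := (coresSys' hqN).rel (cU hrN (rC N q (bez hqN).1 (bez hqN).2 (bez_spec hqN) y) x)
    (∞ : OnePoint (ZMod q))
  rw [coresSys'_a_infty, one_mul] at h2
  refine (CosetSys.comp_a (coresSys' hqN) (uSys hrN) _ _).trans ?_
  refine Eq.trans ?_ (congrArg (fun t => 1 * embR (((((coresSys' hqN).c
    (cU hrN (rC N q (bez hqN).1 (bez hqN).2 (bez_spec hqN) y) x)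
      (∞ : OnePoint (ZMod q)))⁻¹ : Gamma0 (N * q)) : SL(2, ℤ))) * t)
    (CosetSys.comp_a (uSys (Dvd.dvd.mul_right hrN q)) (coresSys' hqN) x y).symm)
  have h4 : (uSys (Dvd.dvd.mul_right hrN q)).a x = heckeMatrix r x.val := rfl
  have h5 : ∀ x' : ZMod r, (uSys hrN).a x' = heckeMatrix r x'.val := fun _ => rfl
  rw [h4, h5, one_mul, Subgroup.coe_inv, map_inv, eq_inv_mul_iff_mul_eq, ← mul_assoc, ← h2]
  have h3 : (coresSys' hqN).a y
      = embR ((rC N q (bez hqN).1 (bez hqN).2 (bez_spec hqN) y : Gamma0 N) : SL(2, ℤ)) :=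
    coresSys_a hqN _ _ _ y
  rw [h3]
  exact h1.symm

/-! ### the Atkin–Lehner operator -/

/-- **the entry lemma**: `κ ∈ Γ₀(N)` with `α_{x'} W = κ W α_x` (representatives of `T_r`, `q ≠ r`)
lies in `Γ₀(N q)` -/
theorem mem_Gamma0_mul_of_wMat_rel' (hqN : ¬ q ∣ N) (hqr : q ≠ r) (κ : Gamma0 N)
    (x x' : OnePoint (ZMod r))
    (hrel : heckeRep r x' * wMat hqN = embR (κ : SL(2, ℤ)) * (wMat hqN * heckeRep r x)) :
    (κ : SL(2, ℤ)) ∈ Gamma0 (N * q) := by
  obtain ⟨a, b, d, hd, hx⟩ := heckeRep_val (ℓ := r) x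
  obtain ⟨a', b', d', -, hx'⟩ := heckeRep_val (ℓ := r) x'
  have hW := wMat_val hqN
  have hbd := bez_spec hqN
  have h11 := congrArg (fun M : GL (Fin 2) ℝ => (M : Matrix (Fin 2) (Fin 2) ℝ) 1 1) hrel
  simp only [Matrix.GeneralLinearGroup.coe_mul, hx, hx', hW, Matrix.mul_apply, Fin.sum_univ_two]
    at h11
  simp at h11
  have hZ : (κ : SL(2, ℤ)) 1 0 * (bez hqN).1 * d
      = q * (d' * (bez hqN).2 - (κ : SL(2, ℤ)) 1 0 * b - (κ : SL(2, ℤ)) 1 1 * N * b
          - (κ : SL(2, ℤ)) 1 1 * (bez hqN).2 * d) := by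
    have : (((κ : SL(2, ℤ)) 1 0 * (bez hqN).1 * d : ℤ) : ℝ)
      = ((q * (d' * (bez hqN).2 - (κ : SL(2, ℤ)) 1 0 * b - (κ : SL(2, ℤ)) 1 1 * N * b
          - (κ : SL(2, ℤ)) 1 1 * (bez hqN).2 * d) : ℤ) : ℝ) := by
      push_cast
      linear_combination -h11
    exact_mod_cast this
  have hqp : Prime (q : ℤ) := Nat.prime_iff_prime_int.mp Fact.out
  have hdvd : (q : ℤ) ∣ (κ : SL(2, ℤ)) 1 0 * (bez hqN).1 * d := ⟨_, hZ⟩
  have hq10 : (q : ℤ) ∣ (κ : SL(2, ℤ)) 1 0 := by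
    rcases hqp.dvd_or_dvd hdvd with h1 | h1
    · rcases hqp.dvd_or_dvd h1 with h2 | h2
      · exact h2
      · exfalso
        have : (q : ℤ) ∣ 1 := by
          rw [← hbd]
          exact dvd_sub (dvd_mul_right _ _) (dvd_mul_of_dvd_right h2 _)
        exact hqp.not_dvd_one this
    · exfalso
      rcases hd with rfl | rfl
      · exact hqp.not_dvd_one h1
      · have h2 : q ∣ r := by exact_mod_cast h1
        exact hqr ((Nat.prime_dvd_prime_iff_eq Fact.out Fact.out).mp h2)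
  have hN10 : (N : ℤ) ∣ (κ : SL(2, ℤ)) 1 0 := dvd_of_mem_Gamma0 κ
  have hcop : IsCoprime (N : ℤ) (q : ℤ) := by
    have hcop' : Nat.Coprime q N := (Nat.Prime.coprime_iff_not_dvd Fact.out).mpr hqN
    exact (Nat.isCoprime_iff_coprime.mpr hcop').symm
  apply mem_Gamma0_of_dvd
  push_cast
  exact hcop.mul_dvd hN10 hq10

/-- the index map `x ↦ x'` with `α_{x'} W ∈ Γ₀(N q) W α_x` on `ℤ/r` -/
noncomputable def idxU (hqN : ¬ q ∣ N) (hrN : r ∣ N) : Equiv.Perm (ZMod r) :=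
  (Equiv.mulLeft₀ (q : ZMod r) (natCast_ne_zero_of_ne (ne_of_dvd_of_not_dvd hqN hrN))).trans
    (sigU hrN (rZero hqN)).symm

theorem exists_kappaU (hqN : ¬ q ∣ N) (hrN : r ∣ N) (x : ZMod r) :
    ∃ κ : Gamma0 (N * q),
      heckeMatrix r (idxU hqN hrN x).val * wMat hqN
        = embR ((κ : Gamma0 (N * q)) : SL(2, ℤ)) * (wMat hqN * heckeMatrix r x.val) := by
  have hqr := ne_of_dvd_of_not_dvd hqN hrN
  have hqℓ := natCast_ne_zero_of_ne hqr
  set x' := idxU hqN hrN x with hx'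
  have hσ : sigU hrN (rZero hqN) x' = (q : ZMod r) * x := by
    show sigU hrN (rZero hqN) ((sigU hrN (rZero hqN)).symm ((q : ZMod r) * x)) = _
    rw [Equiv.apply_symm_apply]
  have h1 := cU_rel hrN (rZero hqN) x'
  rw [hσ] at h1
  obtain ⟨m, hm⟩ := heckeRep_mulQ_mul_dlt hqℓ ((x : ZMod r) : OnePoint (ZMod r))
  rw [mulQ_coe, heckeRep_coe, heckeRep_coe] at hm
  set κ : Gamma0 N := cU hrN (rZero hqN) x' * ⟨trZ m, trZ_mem N m⟩ * (rZero hqN)⁻¹ with hκ
  have hrel : heckeMatrix r x'.val * wMat hqN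
      = embR ((κ : Gamma0 N) : SL(2, ℤ)) * (wMat hqN * heckeMatrix r x.val) := by
    have e1 : heckeMatrix r x'.val * wMat hqN
        = embR ((cU hrN (rZero hqN) x' : Gamma0 N) : SL(2, ℤ))
          * (embR (trZ m) * (dlt q * heckeMatrix r x.val)) := by
      rw [← hm, ← mul_assoc, ← h1]
      unfold Fermat.Agent.GM.B.wMat
      rw [mul_assoc]
    rw [e1, hκ]
    unfold Fermat.Agent.GM.B.wMat
    simp only [Subgroup.coe_mul, Subgroup.coe_inv, map_mul, map_inv]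
    group
  refine ⟨⟨(κ : SL(2, ℤ)), mem_Gamma0_mul_of_wMat_rel' hqN hqr κ
    ((x : ZMod r) : OnePoint (ZMod r)) ((x' : ZMod r) : OnePoint (ZMod r)) ?_⟩, hrel⟩
  rw [heckeRep_coe, heckeRep_coe]
  exact hrel

/-- the chosen `κ_x ∈ Γ₀(N q)` -/
noncomputable def kapU (hqN : ¬ q ∣ N) (hrN : r ∣ N) (x : ZMod r) : Gamma0 (N * q) :=
  (exists_kappaU hqN hrN x).choose

theorem kapU_spec (hqN : ¬ q ∣ N) (hrN : r ∣ N) (x : ZMod r) :
    heckeMatrix r (idxU hqN hrN x).val * wMat hqN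
      = embR ((kapU hqN hrN x : Gamma0 (N * q)) : SL(2, ℤ)) * (wMat hqN * heckeMatrix r x.val) :=
  (exists_kappaU hqN hrN x).choose_spec

/-- **`w_q ∘ U_r = U_r ∘ w_q`** on `Hom(Γ₀(N q), A)` (`r ∣ N`, `q ∤ N`) -/
theorem wOp_cohU (hqN : ¬ q ∣ N) (hrN : r ∣ N) (z : Additive (Gamma0 (N * q)) →+ A) :
    wOp hqN A (cohU (Dvd.dvd.mul_right hrN q) A z)
      = cohU (Dvd.dvd.mul_right hrN q) A (wOp hqN A z) := by
  rw [← uSys_op (Dvd.dvd.mul_right hrN q)]
  unfold wOp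
  rw [← CosetSys.op_comp, ← CosetSys.op_comp]
  refine CosetSys.op_eq_of_cosets ((wSys hqN).comp (uSys (Dvd.dvd.mul_right hrN q)))
    ((uSys (Dvd.dvd.mul_right hrN q)).comp (wSys hqN))
    embR_injective
    (distinct_comp_single (uSys (Dvd.dvd.mul_right hrN q))
      (uSys_distinct (Dvd.dvd.mul_right hrN q)) _ _ _)
    ((Equiv.punitProd (ZMod r)).trans
      ((idxU hqN hrN).trans (Equiv.prodPUnit (ZMod r)).symm))
    1 (fun x => by rw [one_mul, mul_one]) (fun p => kapU hqN hrN p.2) ?_ z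
  rintro ⟨u, (x : ZMod r)⟩
  show heckeMatrix r (idxU hqN hrN x).val * wMat hqN
    = 1 * embR ((kapU hqN hrN x : Gamma0 (N * q)) : SL(2, ℤ)) * (wMat hqN * heckeMatrix r x.val)
  rw [one_mul]
  exact kapU_spec hqN hrN x

/-! ### the twisted degeneracy maps -/

/-- **`res_δ ∘ U_r = U_r ∘ res_δ`** (`r ∣ N`, `q ∤ N`) -/
theorem resD_cohU (hqN : ¬ q ∣ N) (hrN : r ∣ N) (φ : Additive (Gamma0 N) →+ A) :
    resD A N q (cohU hrN A φ) = cohU (Dvd.dvd.mul_right hrN q) A (resD A N q φ) := by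
  rw [← wOp_res hqN, ← wOp_res hqN, res_cohU hrN, wOp_cohU hqN hrN]

/-- **`cores_δ ∘ U_r = U_r ∘ cores_δ`** (`r ∣ N`, `q ∤ N`) -/
theorem coresD_cohU (hqN : ¬ q ∣ N) (hrN : r ∣ N) (ψ : Additive (Gamma0 (N * q)) →+ A) :
    coresD A hqN (cohU (Dvd.dvd.mul_right hrN q) A ψ) = cohU hrN A (coresD A hqN ψ) := by
  rw [← cores_wOp hqN, ← cores_wOp hqN, wOp_cohU hqN hrN, cores_cohU hqN hrN]

end Fermat.Agent.GB.B8.LevelU
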