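/-
GATE-B (S38/S43) / node GB-B8-TWLEVEL, file 1 (helper49): **removal of a Taylor–Wiles prime from
the level, abstract form** (Mathlib only).

`Degen r L0 L1` : two `O`-modules (`L0` = cohomology of level `N`, `L1` = of level `N r`), the two
degeneracy maps `res resD : L0 → L1`, their transfers `cores coresD : L1 → L0`, `T = T_r` on `L0`
and `U = U_r` on `L1`, with the identities
`cores∘res = coresD∘resD = r + 1`, `cores∘resD = coresD∘res = T`,
`U∘res = res∘T − resD`, `U∘resD = r·res`, and on `ker β := ker cores ⊓ ker coresD` :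
`U² = 1`, `U (ker β) ⊆ ker β`.  (All of them are on main for `Hom(Γ₀(N), A) ↔ Hom(Γ₀(N r), A)`.)

`Roots D j a b` : a part `j : P ↪ L0` of `L0` on which `X² − T X + r = (X − a)(X − b)` with
commuting `a b : P → P`, and `1 − a²`, `1 − b²`, `a − b` BIJECTIVE on `P` (a TW prime:
`α β = r ≡ 1`, `α ≠ β`, so `α² ≠ 1 ≠ β²`).

Results: `ιa y := resD (j y) − res (j (a y))` (and `ιb`) satisfy `U ∘ ιa = ιa ∘ a`,
`coresD ∘ ιa = j ∘ (1 − a²)`, `cores ∘ ιa = j ∘ b ∘ (1 − a²)`; every `ψ : L1` with
`cores ψ, coresD ψ ∈ range j` is UNIQUELY `ιa ya + ιb yb + ν` with `ν ∈ ker β`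
(`exists_decomp`, `decomp_unique`), and the decomposition is `U`-equivariant (`decomp_U`).
Hence the part of `L1` over `P` on which `U ≡ a` is `ιa P ≅ P` — no newforms, no Galois
representations.
-/
import Mathlib

set_option autoImplicit false

namespace Fermat.Agent.GB.B8.LevelAbs

variable {O : Type*} [CommRing O]

/-- the degeneracy package at a prime `r` not dividing the level -/
structure Degen (r : O) (L0 L1 : Type*) [AddCommGroup L0] [AddCommGroup L1] [Module O L0]
    [Module O L1] where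
  /-- restriction -/
  res : L0 →ₗ[O] L1
  /-- restriction twisted by `diag(r, 1)` -/
  resD : L0 →ₗ[O] L1
  /-- transfer -/
  cores : L1 →ₗ[O] L0
  /-- twisted transfer -/
  coresD : L1 →ₗ[O] L0
  /-- `T_r` at level `N` -/
  T : L0 →ₗ[O] L0
  /-- `U_r` at level `N r` -/
  U : L1 →ₗ[O] L1
  cores_res : ∀ x, cores (res x) = (r + 1) • x
  coresD_resD : ∀ x, coresD (resD x) = (r + 1) • x
  cores_resD : ∀ x, cores (resD x) = T x
  coresD_res : ∀ x, coresD (res x) = T x
  U_res : ∀ x, U (res x) = res (T x) - resD x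
  U_resD : ∀ x, U (resD x) = r • res x
  U_U_of_ker : ∀ ν, cores ν = 0 → coresD ν = 0 → U (U ν) = ν
  cores_U_of_ker : ∀ ν, cores ν = 0 → coresD ν = 0 → cores (U ν) = 0
  coresD_U_of_ker : ∀ ν, cores ν = 0 → coresD ν = 0 → coresD (U ν) = 0

variable {r : O} {L0 L1 P : Type*} [AddCommGroup L0] [AddCommGroup L1] [AddCommGroup P]
  [Module O L0] [Module O L1] [Module O P]

/-- Hensel roots of `X² − T X + r` on a part `j : P → L0` of `L0`, at a Taylor–Wiles prime -/
structure Roots (D : Degen r L0 L1) (j : P →ₗ[O] L0) (a b : P →ₗ[O] P) : Prop where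
  inj : Function.Injective j
  sum : ∀ y, D.T (j y) = j (a y + b y)
  prod : ∀ y, a (b y) = r • y
  comm : ∀ y, a (b y) = b (a y)
  bij_a : Function.Bijective fun y : P => y - a (a y)
  bij_b : Function.Bijective fun y : P => y - b (b y)
  bij_ab : Function.Bijective fun y : P => a y - b y

namespace Roots

variable {D : Degen r L0 L1} {j : P →ₗ[O] L0} {a b : P →ₗ[O] P}

/-- the roles of `a` and `b` are symmetric -/
theorem symm (h : Roots D j a b) : Roots D j b a where
  inj := h.inj
  sum y := by rw [h.sum, add_comm]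
  prod y := by rw [← h.comm, h.prod]
  comm y := (h.comm y).symm
  bij_a := h.bij_b
  bij_b := h.bij_a
  bij_ab := by
    have : (fun y : P => b y - a y) = fun y => -(a y - b y) := by
      funext y; rw [neg_sub]
    rw [this]
    exact (neg_involutive (G := P)).bijective.comp h.bij_ab

theorem prod' (h : Roots D j a b) (y : P) : b (a y) = r • y := by rw [← h.comm, h.prod]

end Roots

/-- the embedding of `P` into level `N r` attached to the root `a` -/
def iota (D : Degen r L0 L1) (j : P →ₗ[O] L0) (a : P →ₗ[O] P) : P →ₗ[O] L1 :=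
  D.resD ∘ₗ j - D.res ∘ₗ j ∘ₗ a

theorem iota_apply (D : Degen r L0 L1) (j : P →ₗ[O] L0) (a : P →ₗ[O] P) (y : P) :
    iota D j a y = D.resD (j y) - D.res (j (a y)) := rfl

section Formulas

variable {D : Degen r L0 L1} {j : P →ₗ[O] L0} {a b : P →ₗ[O] P}

/-- **`U ∘ ιa = ιa ∘ a`** -/
theorem U_iota (h : Roots D j a b) (y : P) : D.U (iota D j a y) = iota D j a (a y) := by
  rw [iota_apply, iota_apply, map_sub, D.U_resD, D.U_res, h.sum, h.prod' y]
  simp only [map_add, map_smul]
  abel

/-- **`coresD ∘ ιa = j ∘ (1 − a²)`** -/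
theorem coresD_iota (h : Roots D j a b) (y : P) :
    D.coresD (iota D j a y) = j (y - a (a y)) := by
  rw [iota_apply, map_sub, D.coresD_resD, D.coresD_res, h.sum, h.prod' y]
  simp only [map_add, map_sub, map_smul, add_smul, one_smul]
  abel

/-- **`cores ∘ ιa = j ∘ b ∘ (1 − a²)`** -/
theorem cores_iota (h : Roots D j a b) (y : P) :
    D.cores (iota D j a y) = j (b (y - a (a y))) := by
  have h1 : b (a (a y)) = r • a y := by rw [h.prod' (a y)]
  rw [iota_apply, map_sub, D.cores_resD, D.cores_res, h.sum, map_sub, h1]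
  simp only [map_add, map_sub, map_smul, add_smul, one_smul]
  abel

theorem iota_injective (h : Roots D j a b) : Function.Injective (iota D j a) := by
  intro y y' hy
  have h1 := congrArg D.coresD hy
  rw [coresD_iota h, coresD_iota h] at h1
  exact h.bij_a.1 (h.inj h1)

end Formulas

/-! ### the decomposition -/

section Decomp

variable {D : Degen r L0 L1} {j : P →ₗ[O] L0} {a b : P →ₗ[O] P}

/-- the equations determining the components -/
theorem decomp_eqs (h : Roots D j a b) {ψ ν : L1} {ya yb c d : P}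
    (hψ : ψ = iota D j a ya + iota D j b yb + ν) (hν1 : D.cores ν = 0) (hν2 : D.coresD ν = 0)
    (hc : D.cores ψ = j c) (hd : D.coresD ψ = j d) :
    (ya - a (a ya)) + (yb - b (b yb)) = d ∧
      b (ya - a (a ya)) + a (yb - b (b yb)) = c := by
  have e1 : D.coresD ψ = j (ya - a (a ya)) + j (yb - b (b yb)) := by
    rw [hψ, map_add, map_add, hν2, add_zero, coresD_iota h, coresD_iota h.symm]
  have e2 : D.cores ψ = j (b (ya - a (a ya))) + j (a (yb - b (b yb))) := by
    rw [hψ, map_add, map_add, hν1, add_zero, cores_iota h, cores_iota h.symm]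
  constructor
  · apply h.inj
    rw [map_add, ← e1, hd]
  · apply h.inj
    rw [map_add, ← e2, hc]

/-- **uniqueness of the decomposition** -/
theorem decomp_unique (h : Roots D j a b) {ya yb ya' yb' : P} {ν ν' : L1}
    (hν1 : D.cores ν = 0) (hν2 : D.coresD ν = 0) (hν1' : D.cores ν' = 0) (hν2' : D.coresD ν' = 0)
    (heq : iota D j a ya + iota D j b yb + ν = iota D j a ya' + iota D j b yb' + ν') :
    ya = ya' ∧ yb = yb' ∧ ν = ν' := by
  -- reduce to a decomposition of zero
  have h0 : (0 : L1) = iota D j a (ya - ya') + iota D j b (yb - yb') + (ν - ν') := by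
    rw [map_sub, map_sub]
    have := sub_eq_zero.mpr heq
    rw [← this]
    abel
  have e := decomp_eqs h (c := 0) (d := 0) h0 (by rw [map_sub, hν1, hν1', sub_zero])
    (by rw [map_sub, hν2, hν2', sub_zero]) (by rw [map_zero, map_zero]) (by rw [map_zero, map_zero])
  obtain ⟨e1, e2⟩ := e
  set ua := (ya - ya') - a (a (ya - ya')) with hua
  set ub := (yb - yb') - b (b (yb - yb')) with hub
  have hub' : ub = -ua := eq_neg_of_add_eq_zero_right e1
  have h3 : a ua - b ua = 0 := by
    rw [hub', map_neg] at e2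
    have : b ua - a ua = 0 := by rw [sub_eq_add_neg]; exact e2
    rw [← neg_sub, this, neg_zero]
  have hua0 : ua = 0 := h.bij_ab.1 (by
    show a ua - b ua = a 0 - b 0
    rw [h3, map_zero, map_zero, sub_zero])
  have hub0 : ub = 0 := by rw [hub', hua0, neg_zero]
  have hya : ya - ya' = 0 := h.bij_a.1 (by
    show (ya - ya') - a (a (ya - ya')) = 0 - a (a 0)
    rw [← hua, hua0, map_zero, map_zero, sub_zero])
  have hyb : yb - yb' = 0 := h.bij_b.1 (by
    show (yb - yb') - b (b (yb - yb')) = 0 - b (b 0)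
    rw [← hub, hub0, map_zero, map_zero, sub_zero])
  refine ⟨sub_eq_zero.mp hya, sub_eq_zero.mp hyb, ?_⟩
  rw [hya, hyb, map_zero, map_zero, zero_add, zero_add] at h0
  exact sub_eq_zero.mp h0.symm

/-- **existence of the decomposition** over `P` -/
theorem exists_decomp (h : Roots D j a b) {ψ : L1} {c d : P}
    (hc : D.cores ψ = j c) (hd : D.coresD ψ = j d) :
    ∃ (ya yb : P) (ν : L1), D.cores ν = 0 ∧ D.coresD ν = 0 ∧
      ψ = iota D j a ya + iota D j b yb + ν := by
  obtain ⟨ua, hua⟩ := h.bij_ab.2 (a d - c)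
  obtain ⟨ya, hya⟩ := h.bij_a.2 ua
  obtain ⟨yb, hyb⟩ := h.bij_b.2 (d - ua)
  simp only at hua hya hyb
  refine ⟨ya, yb, ψ - iota D j a ya - iota D j b yb, ?_, ?_, by abel⟩
  · rw [map_sub, map_sub, hc, cores_iota h, cores_iota h.symm, hya, hyb, ← map_sub, ← map_sub]
    have e : c = a d - (a ua - b ua) := by rw [hua]; abel
    have : c - b ua - a (d - ua) = 0 := by
      rw [map_sub]
      nth_rewrite 1 [e]
      abel
    rw [this, map_zero]
  · rw [map_sub, map_sub, hd, coresD_iota h, coresD_iota h.symm, hya, hyb, ← map_sub, ← map_sub]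
    have : d - ua - (d - ua) = 0 := sub_self _
    rw [this, map_zero]

/-- **`U`-equivariance of the decomposition** -/
theorem decomp_U (h : Roots D j a b) {ya yb : P} {ν : L1} (hν1 : D.cores ν = 0)
    (hν2 : D.coresD ν = 0) :
    D.U (iota D j a ya + iota D j b yb + ν)
      = iota D j a (a ya) + iota D j b (b yb) + D.U ν ∧
      D.cores (D.U ν) = 0 ∧ D.coresD (D.U ν) = 0 ∧ D.U (D.U ν) = ν := by
  refine ⟨?_, D.cores_U_of_ker ν hν1 hν2, D.coresD_U_of_ker ν hν1 hν2, D.U_U_of_ker ν hν1 hν2⟩
  rw [map_add, map_add, U_iota h, U_iota h.symm]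

/-- the part over `P` is `U`-stable -/
theorem cores_U_mem (h : Roots D j a b) {ψ : L1} {c d : P}
    (hc : D.cores ψ = j c) (hd : D.coresD ψ = j d) :
    ∃ c' d' : P, D.cores (D.U ψ) = j c' ∧ D.coresD (D.U ψ) = j d' := by
  obtain ⟨ya, yb, ν, hν1, hν2, rfl⟩ := exists_decomp h hc hd
  obtain ⟨hU, hU1, hU2, -⟩ := decomp_U h (ya := ya) (yb := yb) hν1 hν2
  refine ⟨b (a ya - a (a (a ya))) + a (b yb - b (b (b yb))),
    (a ya - a (a (a ya))) + (b yb - b (b (b yb))), ?_, ?_⟩
  · rw [hU, map_add, map_add, hU1, add_zero, cores_iota h, cores_iota h.symm, map_add]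
  · rw [hU, map_add, map_add, hU2, add_zero, coresD_iota h, coresD_iota h.symm, map_add]

end Decomp

end Fermat.Agent.GB.B8.LevelAbs
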