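/-
GATE-B (S38/S43) / node GB-B8-TWLEVEL, file 2 (helper49): **the degeneracy package
`LevelAbs.Degen` for `Hom(Γ₀(N), A) ↔ Hom(Γ₀(N q), A)`** (`q ∤ N` prime, `A` any `O`-module),
from the identities on main (GM/B/Main, GM/B/AtkinLehner, GM/B5/UqSquare).

* `opLin S` : the operator of a coset system is `O`-linear in the coefficients;
* `wSys5_op` : the Atkin–Lehner operators of GM/B5 and GM/B agree;
* `cohU_res`  : `U_q (res φ) = res (T_q φ) − res_δ φ`;
* `cohU_resD` : `U_q (res_δ φ) = q • res φ`;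
* `degen hqN` : the package; consequences for Hensel roots of `X² − T_q X + q`:
  `LevelAbs.exists_decomp`, `decomp_unique`, `decomp_U`, `U_iota`, … apply verbatim.
-/
import Fermat.Agent.GB.B8.LevelAbs
import Fermat.Agent.GM.B5.UqSquare
import Fermat.Agent.GM.B.AtkinLehner

set_option autoImplicit false
set_option linter.unusedSectionVars false

open scoped MatrixGroups
open CongruenceSubgroup Matrix Matrix.SpecialLinearGroup
open P2MW.S_ModularForm_heckeT_slash_eq_self_of_mem_Gamma0.ModularForm.HeckeSlashInvariance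
open P2MW.S_ModularForm_heckeT_slash_eq_self_of_mem_Gamma0.ModularForm
open Fermat.Agent.S16_helper49
open Fermat.Agent.GM.Amalgam
open Fermat.Agent.GM.B
open scoped OnePoint

namespace Fermat.Agent.GB.B8.LevelGamma0

/-! ### linearity in the coefficients -/

section Lin

variable {H G : Type*} [Group H] [Group G] {emb : H →* G} {Γ₁ Γ₂ : Subgroup H}
variable {O : Type*} [CommRing O] {A : Type*} [AddCommGroup A] [Module O A]

theorem op_smul (S : CosetSys emb Γ₁ Γ₂) (c : O) (φ : Additive Γ₁ →+ A) :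
    S.op A (c • φ) = c • S.op A φ := by
  refine AddMonoidHom.ext fun g => ?_
  obtain ⟨g, rfl⟩ : ∃ g' : Γ₂, Additive.ofMul g' = g := ⟨Additive.toMul g, rfl⟩
  rw [AddMonoidHom.smul_apply, CosetSys.op_apply, CosetSys.op_apply, Finset.smul_sum]
  rfl

/-- the operator of a coset system, as an `O`-linear map -/
noncomputable def opLin (O : Type*) [CommRing O] {A : Type*} [AddCommGroup A] [Module O A]
    (S : CosetSys emb Γ₁ Γ₂) : (Additive Γ₁ →+ A) →ₗ[O] (Additive Γ₂ →+ A) where
  toFun := S.op A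
  map_add' := map_add (S.op A)
  map_smul' c φ := op_smul S c φ

@[simp] theorem opLin_apply (S : CosetSys emb Γ₁ Γ₂) (φ : Additive Γ₁ →+ A) :
    opLin O S φ = S.op A φ := rfl

end Lin

/-! ### the two Atkin–Lehner systems agree -/

section W

variable {N q : ℕ} [Fact q.Prime] (hqN : ¬ q ∣ N)

theorem gamW_eq_rZero :
    Fermat.Agent.GM.B5.gamW N q (bez hqN).1 (bez hqN).2 (bez_spec hqN)
      = ((rZero hqN : Gamma0 N) : SL(2, ℤ)) := by
  rw [rZero_coe]
  apply Subtype.ext
  ext i j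
  fin_cases i <;> fin_cases j <;>
    simp [Fermat.Agent.GM.B5.gamW, repC, mkZ, mul_comm]

theorem wMat5_eq :
    Fermat.Agent.GM.B5.wMat N q (bez hqN).1 (bez hqN).2 (bez_spec hqN) = wMat hqN := by
  unfold Fermat.Agent.GM.B5.wMat wMat
  rw [gamW_eq_rZero]

/-- the Atkin–Lehner operator of GM/B5 (used in `res_cores_eq`, `res_coresD_eq`) is `wOp` -/
theorem wSys5_op {A : Type*} [AddCommGroup A] (ψ : Additive (Gamma0 (N * q)) →+ A) :
    (Fermat.Agent.GM.B5.wSys N q (bez hqN).1 (bez hqN).2 (bez_spec hqN)).op A ψ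
      = wOp hqN A ψ := by
  unfold wOp
  refine CosetSys.op_eq_of_equiv (wSys hqN)
    (Fermat.Agent.GM.B5.wSys N q (bez hqN).1 (bez hqN).2 (bez_spec hqN)) embR_injective
    (Equiv.refl Unit) 1 (fun x => by rw [one_mul, mul_one]) (fun _ => 1) ?_ ?_ ψ
  · intro _
    show Fermat.Agent.GM.B5.wMat N q (bez hqN).1 (bez hqN).2 (bez_spec hqN)
      = 1 * embR ((1 : Gamma0 (N * q)) : SL(2, ℤ)) * wMat hqN
    rw [Subgroup.coe_one, map_one, one_mul, one_mul, wMat5_eq]
  · intro g _
    rfl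

end W

/-! ### `U_q` on the old part -/

section UOld

variable {N q : ℕ} [Fact q.Prime] (hqN : ¬ q ∣ N) {A : Type*} [AddCommGroup A]

local notation "hdvd" => (Fermat.Agent.GM.B5.dvd_mul_self_right (N := N) (q := q))

/-- `res ∘ cores_δ = U_q + w_q` in the vocabulary of GM/B/Main -/
theorem res_coresD (ψ : Additive (Gamma0 (N * q)) →+ A) :
    res A N q (coresD A hqN ψ) = cohU hdvd A ψ + wOp hqN A ψ := by
  have h := Fermat.Agent.GM.B5.res_coresD_eq hqN (bez hqN).1 (bez hqN).2 (bez_spec hqN) ψ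
  rw [Fermat.Agent.GM.B5.uSys_op, wSys5_op] at h
  exact h

/-- `res ∘ cores = 1 + U_q ∘ w_q` in the vocabulary of GM/B/Main -/
theorem res_cores (ψ : Additive (Gamma0 (N * q)) →+ A) :
    res A N q (cores A hqN ψ) = ψ + cohU hdvd A (wOp hqN A ψ) := by
  have h := Fermat.Agent.GM.B5.res_cores_eq hqN (bez hqN).1 (bez hqN).2 (bez_spec hqN) ψ
  rw [Fermat.Agent.GM.B5.uSys_op, wSys5_op] at h
  exact h

/-- **`U_q ∘ res = res ∘ T_q − res_δ`** -/
theorem cohU_res (φ : Additive (Gamma0 N) →+ A) :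
    cohU hdvd A (res A N q φ) = res A N q (cohT hqN A φ) - resD A N q φ := by
  have h := res_coresD hqN (res A N q φ)
  rw [coresD_comp_res, wOp_res] at h
  exact eq_sub_of_add_eq h.symm

include hqN in
/-- **`U_q ∘ res_δ = q • res`** -/
theorem cohU_resD (φ : Additive (Gamma0 N) →+ A) :
    cohU hdvd A (resD A N q φ) = q • res A N q φ := by
  have h := res_coresD hqN (resD A N q φ)
  rw [coresD_comp_resD, wOp_resD, map_nsmul, succ_nsmul] at h
  exact (add_right_cancel h).symm

/-- on `ker β`, `U_q = − w_q` -/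
theorem cohU_eq_neg_wOp_of_ker (ν : Additive (Gamma0 (N * q)) →+ A)
    (h2 : coresD A hqN ν = 0) : cohU hdvd A ν = - wOp hqN A ν := by
  have h := res_coresD hqN ν
  rw [h2, map_zero] at h
  exact eq_neg_of_add_eq_zero_left h.symm

theorem cores_cohU_of_ker (ν : Additive (Gamma0 (N * q)) →+ A)
    (h2 : coresD A hqN ν = 0) : cores A hqN (cohU hdvd A ν) = 0 := by
  rw [cohU_eq_neg_wOp_of_ker hqN ν h2, map_neg, cores_wOp, h2, neg_zero]

theorem coresD_cohU_of_ker (ν : Additive (Gamma0 (N * q)) →+ A)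
    (h1 : cores A hqN ν = 0) (h2 : coresD A hqN ν = 0) :
    coresD A hqN (cohU hdvd A ν) = 0 := by
  rw [cohU_eq_neg_wOp_of_ker hqN ν h2, map_neg, coresD_wOp, h1, neg_zero]

end UOld

/-! ### the package -/

section Package

variable {N q : ℕ} [Fact q.Prime] (hqN : ¬ q ∣ N)
variable (O : Type*) [CommRing O] (A : Type*) [AddCommGroup A] [Module O A]

local notation "hdvd" => (Fermat.Agent.GM.B5.dvd_mul_self_right (N := N) (q := q))

theorem natCast_smul_hom {Γ : Type*} [Group Γ] (n : ℕ) (φ : Additive Γ →+ A) :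
    (n : O) • φ = n • φ := Nat.cast_smul_eq_nsmul O n φ

/-- **the degeneracy package of `Hom(Γ₀(N), A) ↔ Hom(Γ₀(N q), A)`** -/
noncomputable def degen :
    LevelAbs.Degen (q : O) (Additive (Gamma0 N) →+ A) (Additive (Gamma0 (N * q)) →+ A) where
  res := opLin O (resSys N q)
  resD := opLin O (resDSys N q)
  cores := opLin O (coresSys' hqN)
  coresD := opLin O (coresDSys' hqN)
  T := opLin O (heckeSys hqN)
  U := opLin O (Fermat.Agent.GM.B5.uSys hdvd)
  cores_res φ := by
    show cores A hqN (res A N q φ) = ((q : O) + 1) • φ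
    rw [cores_comp_res, ← Nat.cast_smul_eq_nsmul O, Nat.cast_add, Nat.cast_one]
  coresD_resD φ := by
    show coresD A hqN (resD A N q φ) = ((q : O) + 1) • φ
    rw [coresD_comp_resD, ← Nat.cast_smul_eq_nsmul O, Nat.cast_add, Nat.cast_one]
  cores_resD φ := by
    show cores A hqN (resD A N q φ) = (heckeSys hqN).op A φ
    rw [cores_comp_resD, heckeSys_op]
  coresD_res φ := by
    show coresD A hqN (res A N q φ) = (heckeSys hqN).op A φ
    rw [coresD_comp_res, heckeSys_op]
  U_res φ := by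
    show (Fermat.Agent.GM.B5.uSys hdvd).op A (res A N q φ)
      = res A N q ((heckeSys hqN).op A φ) - resD A N q φ
    rw [Fermat.Agent.GM.B5.uSys_op, heckeSys_op, cohU_res hqN]
  U_resD φ := by
    show (Fermat.Agent.GM.B5.uSys hdvd).op A (resD A N q φ) = (q : O) • res A N q φ
    rw [Fermat.Agent.GM.B5.uSys_op, cohU_resD hqN, Nat.cast_smul_eq_nsmul O]
  U_U_of_ker ν h1 h2 := by
    show (Fermat.Agent.GM.B5.uSys hdvd).op A ((Fermat.Agent.GM.B5.uSys hdvd).op A ν) = ν
    rw [Fermat.Agent.GM.B5.uSys_op]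
    exact Fermat.Agent.GM.B5.cohU_cohU_eq_of_cores_eq_zero hqN ν h1 h2
  cores_U_of_ker ν h1 h2 := by
    show cores A hqN ((Fermat.Agent.GM.B5.uSys hdvd).op A ν) = 0
    rw [Fermat.Agent.GM.B5.uSys_op]
    exact cores_cohU_of_ker hqN ν h2
  coresD_U_of_ker ν h1 h2 := by
    show coresD A hqN ((Fermat.Agent.GM.B5.uSys hdvd).op A ν) = 0
    rw [Fermat.Agent.GM.B5.uSys_op]
    exact coresD_cohU_of_ker hqN ν h1 h2

@[simp] theorem degen_res (φ : Additive (Gamma0 N) →+ A) :
    (degen hqN O A).res φ = res A N q φ := rfl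

@[simp] theorem degen_resD (φ : Additive (Gamma0 N) →+ A) :
    (degen hqN O A).resD φ = resD A N q φ := rfl

@[simp] theorem degen_cores (ψ : Additive (Gamma0 (N * q)) →+ A) :
    (degen hqN O A).cores ψ = cores A hqN ψ := rfl

@[simp] theorem degen_coresD (ψ : Additive (Gamma0 (N * q)) →+ A) :
    (degen hqN O A).coresD ψ = coresD A hqN ψ := rfl

theorem degen_T (φ : Additive (Gamma0 N) →+ A) :
    (degen hqN O A).T φ = cohT hqN A φ := by
  show (heckeSys hqN).op A φ = _
  rw [heckeSys_op]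

theorem degen_U (ψ : Additive (Gamma0 (N * q)) →+ A) :
    (degen hqN O A).U ψ = cohU hdvd A ψ := by
  show (Fermat.Agent.GM.B5.uSys hdvd).op A ψ = _
  rw [Fermat.Agent.GM.B5.uSys_op]

end Package

end Fermat.Agent.GB.B8.LevelGamma0
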