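/-
GATE-B (S38/S43) / node GB-B8-TWLEVEL, file 5 (helper49): **Hensel roots of `X² − T_r X + r` as
Hecke symbols**, and topological nilpotence of `𝔪` on the `𝔪`-primary part.

Setting of `GB/B3/Loc.lean`: `𝒪` complete noetherian local, `A` a commutative `𝒪`-algebra of Hecke
symbols, `𝔪` a maximal ideal of `A`, `L` an `A`-module finite over `𝒪`.

* `exists_hensel_roots` : if `x ≡ α + β`, `α β ≡ r`, `α ≢ β` modulo `𝔪` (`α β r : 𝒪`) there are
  `a b : A` with `a + b = x`, `a b = r` ON `locPart 𝔪 L`, `a ≡ α`, `b ≡ β` modulo `𝔪`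
  (Hensel's lemma in the complete local ring `A ⧸ Ann (locPart 𝔪 L)` of helper74's Loc2/LocRing);
* `exists_pow_smul_mem` : every `t ∈ 𝔪` is topologically nilpotent on `locPart 𝔪 L`:
  `t ^ m • locPart 𝔪 L ⊆ 𝔪_𝒪 • locPart 𝔪 L` for some `m`.
-/
import Mathlib
import Fermat.Agent.GB.B3.Loc2
import Fermat.Agent.GB.B3.LocRing
import Fermat.Agent.GB.Glue.Adic

set_option autoImplicit false
set_option linter.unusedSectionVars false
set_option linter.style.haveILetI false

namespace Fermat.Agent.GB.B8.LevelHensel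

open Fermat.Agent.GB.B3.Loc Fermat.Agent.GB.B3.Loc2 Fermat.Agent.GB.B3.LocRing
open Polynomial

section Main

variable (𝒪 : Type) [CommRing 𝒪] [IsLocalRing 𝒪] [IsNoetherianRing 𝒪]
  [IsAdicComplete (IsLocalRing.maximalIdeal 𝒪) 𝒪]
variable {A : Type} [CommRing A] [Algebra 𝒪 A]
variable {L : Type*} [AddCommGroup L] [Module 𝒪 L] [Module A L] [IsScalarTower 𝒪 A L]
  [Module.Finite 𝒪 L]
variable (𝔪 : Ideal A) [h𝔪 : 𝔪.IsMaximal]

include 𝒪

/-- **Hensel roots as Hecke symbols.** -/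
theorem exists_hensel_roots (x : A) (r α β : 𝒪)
    (hsum : x - algebraMap 𝒪 A (α + β) ∈ 𝔪) (hprod : algebraMap 𝒪 A (α * β - r) ∈ 𝔪)
    (hab : algebraMap 𝒪 A (α - β) ∉ 𝔪) :
    ∃ a b : A, a + b = x ∧ (∀ y ∈ locPart 𝔪 L, (a * b) • y = r • y) ∧
      a - algebraMap 𝒪 A α ∈ 𝔪 ∧ b - algebraMap 𝒪 A β ∈ 𝔪 := by
  by_cases hne : locPart 𝔪 L = ⊥
  · refine ⟨algebraMap 𝒪 A α, x - algebraMap 𝒪 A α, by ring, ?_, by simp, ?_⟩
    · intro y hy
      rw [hne, Submodule.mem_bot] at hy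
      subst hy
      rw [smul_zero, smul_zero]
    · have : x - algebraMap 𝒪 A α - algebraMap 𝒪 A β = x - algebraMap 𝒪 A (α + β) := by
        rw [map_add]; ring
      rw [this]
      exact hsum
  · haveI hloc := isLocalRing_quotient 𝒪 (L := L) 𝔪 hne
    haveI : Module.Finite 𝒪 (A ⧸ Module.annihilator A (locPart 𝔪 L)) :=
      finite_quotient_locPart 𝒪 (L := L) 𝔪
    haveI : IsAdicComplete (IsLocalRing.maximalIdeal (A ⧸ Module.annihilator A (locPart 𝔪 L)))
        (A ⧸ Module.annihilator A (locPart 𝔪 L)) :=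
      isAdicComplete_of_finite_of_isLocalRing 𝒪 (A ⧸ Module.annihilator A (locPart 𝔪 L))
    set I := Module.annihilator A (locPart 𝔪 L) with hI
    have hmem : ∀ t : A, Ideal.Quotient.mk I t ∈ IsLocalRing.maximalIdeal (A ⧸ I) ↔ t ∈ 𝔪 :=
      fun t => mem_maximalIdeal_quotient_iff 𝒪 (L := L) 𝔪 hne t
    let f : (A ⧸ I)[X] :=
      X ^ 2 - C (Ideal.Quotient.mk I x) * X + C (Ideal.Quotient.mk I (algebraMap 𝒪 A r))
    have hf : f.Monic := by
      have h1 : f = X ^ 2 + (- C (Ideal.Quotient.mk I x) * X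
          + C (Ideal.Quotient.mk I (algebraMap 𝒪 A r))) := by
        show X ^ 2 - C (Ideal.Quotient.mk I x) * X + C (Ideal.Quotient.mk I (algebraMap 𝒪 A r)) = _
        ring
      rw [h1]
      apply Polynomial.monic_X_pow_add
      refine lt_of_le_of_lt (Polynomial.degree_add_le _ _) ?_
      refine max_lt ?_ ?_
      · rw [← map_neg]
        exact lt_of_le_of_lt (Polynomial.degree_C_mul_X_le _) (by norm_num)
      · exact lt_of_le_of_lt Polynomial.degree_C_le (by norm_num)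
    have hev : ∀ t : A, f.eval (Ideal.Quotient.mk I t)
        = Ideal.Quotient.mk I (t ^ 2 - x * t + algebraMap 𝒪 A r) := by
      intro t
      simp [f]
    have hder : ∀ t : A, f.derivative.eval (Ideal.Quotient.mk I t)
        = Ideal.Quotient.mk I (2 * t - x) := by
      intro t
      simp [f]
      rw [map_ofNat]
      ring
    have h1 : f.eval (Ideal.Quotient.mk I (algebraMap 𝒪 A α))
        ∈ IsLocalRing.maximalIdeal (A ⧸ I) := by
      rw [hev, hmem]
      have e : algebraMap 𝒪 A α ^ 2 - x * algebraMap 𝒪 A α + algebraMap 𝒪 A r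
          = - (algebraMap 𝒪 A α * (x - algebraMap 𝒪 A (α + β)))
            - algebraMap 𝒪 A (α * β - r) := by
        simp only [map_add, map_sub, map_mul]
        ring
      rw [e]
      exact 𝔪.sub_mem (𝔪.neg_mem (𝔪.mul_mem_left _ hsum)) hprod
    have h2 : IsUnit (Ideal.Quotient.mk (IsLocalRing.maximalIdeal (A ⧸ I))
        (f.derivative.eval (Ideal.Quotient.mk I (algebraMap 𝒪 A α)))) := by
      apply IsUnit.map
      rw [hder]
      apply isUnit_mk_of_notMem 𝒪 (L := L) 𝔪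
      intro hmem'
      apply hab
      have e : algebraMap 𝒪 A (α - β)
          = (2 * algebraMap 𝒪 A α - x) + (x - algebraMap 𝒪 A (α + β)) := by
        simp only [map_add, map_sub]
        ring
      rw [e]
      exact 𝔪.add_mem hmem' hsum
    obtain ⟨a', haroot, ha'⟩ := HenselianRing.is_henselian
      (I := IsLocalRing.maximalIdeal (A ⧸ I)) f hf _ h1 h2
    obtain ⟨a, rfl⟩ := Ideal.Quotient.mk_surjective a'
    have hamem : a - algebraMap 𝒪 A α ∈ 𝔪 := by
      rw [← hmem, map_sub]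
      exact ha'
    have hroot : a ^ 2 - x * a + algebraMap 𝒪 A r ∈ I := by
      have := haroot
      rw [Polynomial.IsRoot.def, hev] at this
      exact Ideal.Quotient.eq_zero_iff_mem.1 this
    refine ⟨a, x - a, by ring, ?_, hamem, ?_⟩
    · intro y hy
      have h3 : (a ^ 2 - x * a + algebraMap 𝒪 A r) • (⟨y, hy⟩ : locPart 𝔪 L) = 0 :=
        Module.mem_annihilator.1 hroot _
      have h4 : (a ^ 2 - x * a + algebraMap 𝒪 A r) • y = 0 := congrArg Subtype.val h3
      have e : a * (x - a) = algebraMap 𝒪 A r - (a ^ 2 - x * a + algebraMap 𝒪 A r) := by ring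
      rw [e, sub_smul, h4, sub_zero, algebraMap_smul]
    · have e : x - a - algebraMap 𝒪 A β
          = (x - algebraMap 𝒪 A (α + β)) - (a - algebraMap 𝒪 A α) := by
        rw [map_add]; ring
      rw [e]
      exact 𝔪.sub_mem hsum hamem

omit [IsLocalRing 𝒪] [IsNoetherianRing 𝒪] [IsAdicComplete (IsLocalRing.maximalIdeal 𝒪) 𝒪]
  [Module.Finite 𝒪 L] h𝔪 in
/-- elements of the extended ideal `𝔞 A` map an `A`-submodule `N` into `𝔞 • N` -/
theorem smul_mem_smul_of_mem_map {M : Type*} [AddCommGroup M] [Module 𝒪 M] [Module A M]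
    [IsScalarTower 𝒪 A M] (𝔞 : Ideal 𝒪) (N : Submodule A M) {u : A}
    (hu : u ∈ 𝔞.map (algebraMap 𝒪 A)) {y : M} (hy : y ∈ N) :
    u • y ∈ (𝔞 • N.restrictScalars 𝒪 : Submodule 𝒪 M) := by
  rw [Ideal.map] at hu
  induction hu using Submodule.span_induction generalizing y with
  | mem u hu' =>
    obtain ⟨c, hc, rfl⟩ := hu'
    rw [algebraMap_smul]
    exact Submodule.smul_mem_smul hc hy
  | zero =>
    rw [zero_smul]
    exact Submodule.zero_mem _
  | add u v _ _ hu' hv' =>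
    rw [add_smul]
    exact Submodule.add_mem _ (hu' hy) (hv' hy)
  | smul a' u _ hu' =>
    rw [smul_eq_mul, mul_comm, mul_smul]
    exact hu' (N.smul_mem a' hy)

/-- **`𝔪` is topologically nilpotent on the `𝔪`-primary part** -/
theorem exists_pow_smul_mem (t : A) (ht : t ∈ 𝔪) :
    ∃ m : ℕ, ∀ y ∈ locPart 𝔪 L,
      t ^ m • y ∈ (IsLocalRing.maximalIdeal 𝒪 • (locPart 𝔪 L).restrictScalars 𝒪 :
        Submodule 𝒪 L) := by
  by_cases hne : locPart 𝔪 L = ⊥
  · refine ⟨0, fun y hy => ?_⟩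
    have h0 : y ∈ (⊥ : Submodule A L) := (le_of_eq hne) hy
    rw [(Submodule.mem_bot A).1 h0, smul_zero]
    exact Submodule.zero_mem _
  · haveI hloc := isLocalRing_quotient 𝒪 (L := L) 𝔪 hne
    haveI : Module.Finite 𝒪 (A ⧸ Module.annihilator A (locPart 𝔪 L)) :=
      finite_quotient_locPart 𝒪 (L := L) 𝔪
    haveI : IsLocalHom (algebraMap 𝒪 (A ⧸ Module.annihilator A (locPart 𝔪 L))) :=
      isLocalHom_algebraMap_of_finite 𝒪 (A ⧸ Module.annihilator A (locPart 𝔪 L))
    set I := Module.annihilator A (locPart 𝔪 L) with hI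
    obtain ⟨e, he⟩ := Fermat.Agent.GB.Glue.Adic.exists_maximalIdeal_pow_le_map
      (T := 𝒪) (O := A ⧸ I)
    refine ⟨e, fun y hy => ?_⟩
    have h1 : Ideal.Quotient.mk I t ∈ IsLocalRing.maximalIdeal (A ⧸ I) :=
      (mem_maximalIdeal_quotient_iff 𝒪 (L := L) 𝔪 hne t).2 ht
    have h2 : Ideal.Quotient.mk I (t ^ e)
        ∈ (IsLocalRing.maximalIdeal 𝒪).map (algebraMap 𝒪 (A ⧸ I)) := by
      rw [map_pow]
      exact he (Ideal.pow_mem_pow h1 e)
    have h3 : (IsLocalRing.maximalIdeal 𝒪).map (algebraMap 𝒪 (A ⧸ I))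
        = ((IsLocalRing.maximalIdeal 𝒪).map (algebraMap 𝒪 A)).map (Ideal.Quotient.mk I) := by
      rw [Ideal.map_map]
      rfl
    rw [h3, Ideal.mem_quotient_iff_mem_sup] at h2
    obtain ⟨u, hu, v, hv, huv⟩ := Submodule.mem_sup.1 h2
    have hv0 : v • y = 0 := by
      have := Module.mem_annihilator.1 hv (⟨y, hy⟩ : locPart 𝔪 L)
      exact congrArg Subtype.val this
    rw [← huv, add_smul, hv0, add_zero]
    exact smul_mem_smul_of_mem_map 𝒪 (IsLocalRing.maximalIdeal 𝒪) (locPart 𝔪 L) hu hy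

end Main

end Fermat.Agent.GB.B8.LevelHensel
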