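/-
GATE-B (S38/S43) / node GB-B8-TWLEVEL, file 3 (helper49): **the `𝔪_Q`-primary part of level `N r`
is `ιa (P)`**, in helper74's localisation formalism (`GB/B3/Loc.lean`: `locPart 𝔪 L`).

Setting: `𝒪` complete noetherian local, `𝕋` a commutative `𝒪`-algebra of Hecke symbols (with the
symbol `u` of `U_r`), `𝔪Q` a maximal ideal of `𝕋`, `L1` (level `N r`) a `𝕋`-module finite over `𝒪`;
`D : Degen r L0 L1`, `Roots D j a b` on a part `j : P → L0`; two `𝕋`-actions `actA actB` on `P`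
(`u ↦ a`, resp. `u ↦ b`) for which `ιa`, `ιb` are equivariant.  Hypotheses:
* `hover` : the `𝔪Q`-primary part of `L1` lies over `P` (`cores`, `coresD` are Hecke-equivariant and
  `P` is the primary part of `L0`);
* `hA` : every `s ∉ 𝔪Q` acts surjectively on `P` through `actA` (`a ≡ α̃`);
* `sb ∉ 𝔪Q` with `(actB sb)^m P ⊆ 𝔪_𝒪 P` (`sb = u − β̃`, `b ≡ β̃`);
* `sν ∉ 𝔪Q` killing `ker β` (`sν = u² − 1`, since `U² = 1` on `ker β` and `α̃² ≠ 1`).
Conclusion `locPart_eq_range_iota : locPart 𝔪Q L1 = range (ιa)` and the equivariant isomorphism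
`locEquiv : P ≃ₗ[𝒪] locPart 𝔪Q L1`.
-/
import Fermat.Agent.GB.B8.LevelAbs
import Fermat.Agent.GB.B3.Loc

set_option autoImplicit false
set_option linter.unusedSectionVars false

namespace Fermat.Agent.GB.B8.LevelLoc

open Fermat.Agent.GB.B8.LevelAbs Fermat.Agent.GB.B3.Loc

/-- equivariance on generators: the set of `s` with `s • f y = f (act s y)` is a subalgebra -/
theorem equivariant_of_adjoin {𝒪 𝕋 P L : Type*} [CommRing 𝒪] [CommRing 𝕋] [Algebra 𝒪 𝕋]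
    [AddCommGroup P] [Module 𝒪 P] [AddCommGroup L] [Module 𝒪 L] [Module 𝕋 L]
    [IsScalarTower 𝒪 𝕋 L] (act : 𝕋 →ₐ[𝒪] Module.End 𝒪 P) (f : P →ₗ[𝒪] L) (S : Set 𝕋)
    (hS : Algebra.adjoin 𝒪 S = ⊤) (h : ∀ s ∈ S, ∀ y, s • f y = f (act s y)) :
    ∀ (s : 𝕋) (y : P), s • f y = f (act s y) := by
  intro s
  have hs : s ∈ Algebra.adjoin 𝒪 S := by rw [hS]; trivial
  induction hs using Algebra.adjoin_induction with
  | mem x hx => exact h x hx
  | algebraMap c =>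
    intro y
    rw [algebraMap_smul, AlgHom.commutes, Module.algebraMap_end_apply, map_smul]
  | add x y _ _ hx hy =>
    intro z
    rw [add_smul, hx, hy, map_add, LinearMap.add_apply, map_add]
  | mul x y _ _ hx hy =>
    intro z
    rw [mul_smul, hy, hx, map_mul, Module.End.mul_apply]

section Main

variable {𝒪 : Type} [CommRing 𝒪] [IsLocalRing 𝒪] [IsNoetherianRing 𝒪]
  [IsAdicComplete (IsLocalRing.maximalIdeal 𝒪) 𝒪]
variable {𝕋 : Type} [CommRing 𝕋] [Algebra 𝒪 𝕋] (𝔪Q : Ideal 𝕋) [h𝔪 : 𝔪Q.IsMaximal]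
variable {L0 L1 P : Type*} [AddCommGroup L0] [AddCommGroup L1] [AddCommGroup P]
  [Module 𝒪 L0] [Module 𝒪 L1] [Module 𝒪 P] [Module 𝕋 L1] [IsScalarTower 𝒪 𝕋 L1]
  [Module.Finite 𝒪 L1] [Module.Finite 𝒪 P]
variable {r : 𝒪} {D : Degen r L0 L1} {j : P →ₗ[𝒪] L0} {a b : P →ₗ[𝒪] P}

/-- **the `𝔪Q`-primary part of level `N r` is `ιa P`** -/
theorem locPart_eq_range_iota (h : Roots D j a b)
    (actA actB : 𝕋 →ₐ[𝒪] Module.End 𝒪 P)
    (hEa : ∀ (s : 𝕋) (y : P), s • iota D j a y = iota D j a (actA s y))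
    (hEb : ∀ (s : 𝕋) (y : P), s • iota D j b y = iota D j b (actB s y))
    (hEν : ∀ (s : 𝕋) (ν : L1), D.cores ν = 0 → D.coresD ν = 0 →
      D.cores (s • ν) = 0 ∧ D.coresD (s • ν) = 0)
    (hover : ∀ ψ ∈ locPart 𝔪Q L1, ∃ c d : P, D.cores ψ = j c ∧ D.coresD ψ = j d)
    (hA : ∀ s : 𝕋, s ∉ 𝔪Q → Function.Surjective (actA s))
    (sb : 𝕋) (hsb : sb ∉ 𝔪Q) (m : ℕ)
    (hB : ∀ y : P, (actB sb ^ m) y ∈ (IsLocalRing.maximalIdeal 𝒪 • ⊤ : Submodule 𝒪 P))
    (sν : 𝕋) (hsν : sν ∉ 𝔪Q) (hν : ∀ ν : L1, D.cores ν = 0 → D.coresD ν = 0 → sν • ν = 0) :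
    (locPart 𝔪Q L1 : Set L1) = Set.range (iota D j a) := by
  apply Set.Subset.antisymm
  · intro ψ hψ
    -- divide by `s ∉ 𝔪Q` inside the primary part, and compare the decompositions
    have hdiv : ∀ s : 𝕋, s ∉ 𝔪Q → ∃ ψ' ∈ locPart 𝔪Q L1, s • ψ' = ψ := by
      intro s hs
      obtain ⟨ψ', hψ'⟩ := (bijective_smul_locPart 𝒪 (L := L1) 𝔪Q hs).2 ⟨ψ, hψ⟩
      exact ⟨ψ', ψ'.2, congrArg Subtype.val hψ'⟩
    obtain ⟨c, d, hc, hd⟩ := hover ψ hψ
    obtain ⟨ya, yb, ν, hν1, hν2, hdec⟩ := exists_decomp h hc hd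
    have key : ∀ s : 𝕋, s ∉ 𝔪Q → ∃ (yb' : P) (ν' : L1), D.cores ν' = 0 ∧ D.coresD ν' = 0 ∧
        yb = actB s yb' ∧ ν = s • ν' := by
      intro s hs
      obtain ⟨ψ', hψ'mem, hψ'⟩ := hdiv s hs
      obtain ⟨c', d', hc', hd'⟩ := hover ψ' hψ'mem
      obtain ⟨ya', yb', ν', hν1', hν2', hdec'⟩ := exists_decomp h hc' hd'
      have h1 : iota D j a ya + iota D j b yb + ν
          = iota D j a (actA s ya') + iota D j b (actB s yb') + s • ν' := by
        rw [← hdec, ← hψ', hdec', smul_add, smul_add, hEa, hEb]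
      obtain ⟨hsν1, hsν2⟩ := hEν s ν' hν1' hν2'
      obtain ⟨-, e2, e3⟩ := decomp_unique h hν1 hν2 hsν1 hsν2 h1
      exact ⟨yb', ν', hν1', hν2', e2, e3⟩
    -- the new part vanishes
    have hν0 : ν = 0 := by
      obtain ⟨-, ν', hν1', hν2', -, e3⟩ := key sν hsν
      rw [e3, hν ν' hν1' hν2']
    -- the `b`-part vanishes (Krull intersection)
    have hyb0 : yb = 0 := by
      have hmem : ∀ k : ℕ, yb ∈ ((IsLocalRing.maximalIdeal 𝒪) ^ k • ⊤ : Submodule 𝒪 P) := by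
        intro k
        have hpow : sb ^ (m * k) ∉ 𝔪Q := fun hmem => hsb (h𝔪.isPrime.mem_of_pow_mem _ hmem)
        obtain ⟨yb', -, -, -, e2, -⟩ := key (sb ^ (m * k)) hpow
        rw [e2, map_pow, pow_mul]
        -- `(actB sb ^ m) ^ k` maps `P` into `𝔪^k P`
        have hk : ∀ (k : ℕ) (y : P), ((actB sb ^ m) ^ k) y
            ∈ ((IsLocalRing.maximalIdeal 𝒪) ^ k • ⊤ : Submodule 𝒪 P) := by
          intro k
          induction k with
          | zero => intro y; simp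
          | succ k ih =>
            intro y
            rw [pow_succ' (actB sb ^ m) k, Module.End.mul_apply]
            have h1 := ih y
            -- apply `actB sb ^ m` to an element of `𝔪^k P`
            have h2 : ∀ z ∈ ((IsLocalRing.maximalIdeal 𝒪) ^ k • ⊤ : Submodule 𝒪 P),
                (actB sb ^ m) z
                  ∈ ((IsLocalRing.maximalIdeal 𝒪) ^ (k + 1) • ⊤ : Submodule 𝒪 P) := by
              intro z hz
              refine Submodule.smul_induction_on hz ?_ ?_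
              · intro c hc y' _
                rw [map_smul, pow_succ, Submodule.mul_smul]
                exact Submodule.smul_mem_smul hc (hB y')
              · intro x y' hx hy'
                rw [map_add]
                exact Submodule.add_mem _ hx hy'
            exact h2 _ h1
        exact hk k yb'
      have hbot : (⨅ k : ℕ, (IsLocalRing.maximalIdeal 𝒪) ^ k • (⊤ : Submodule 𝒪 P)) = ⊥ :=
        Ideal.iInf_pow_smul_eq_bot_of_isLocalRing _ (IsLocalRing.maximalIdeal.isMaximal 𝒪).ne_top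
      have : yb ∈ (⨅ k : ℕ, (IsLocalRing.maximalIdeal 𝒪) ^ k • (⊤ : Submodule 𝒪 P)) :=
        (Submodule.mem_iInf _).mpr hmem
      rw [hbot] at this
      exact (Submodule.mem_bot 𝒪).mp this
    refine ⟨ya, ?_⟩
    rw [hdec, hν0, hyb0, map_zero, add_zero, add_zero]
  · rintro _ ⟨y, rfl⟩
    show iota D j a y ∈ locPart 𝔪Q L1
    rw [mem_locPart]
    intro s hs
    obtain ⟨y', rfl⟩ := hA s hs y
    exact ⟨iota D j a y', hEa s y'⟩

/-- **`P ≃ (L1)_{𝔪Q}`** through `ιa` -/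
noncomputable def locEquiv (h : Roots D j a b)
    (hrange : (locPart 𝔪Q L1 : Set L1) = Set.range (iota D j a)) :
    P ≃ₗ[𝒪] ↥((locPart 𝔪Q L1).restrictScalars 𝒪) :=
  LinearEquiv.ofBijective
    (LinearMap.codRestrict ((locPart 𝔪Q L1).restrictScalars 𝒪) (iota D j a) (fun y => by
      show iota D j a y ∈ (locPart 𝔪Q L1 : Set L1)
      rw [hrange]
      exact ⟨y, rfl⟩))
    ⟨fun y y' hy => iota_injective h (congrArg Subtype.val hy), fun ψ => by
      have hψ : (ψ : L1) ∈ (locPart 𝔪Q L1 : Set L1) := ψ.2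
      rw [hrange] at hψ
      obtain ⟨y, hy⟩ := hψ
      exact ⟨y, Subtype.ext hy⟩⟩

@[simp] theorem locEquiv_apply (h : Roots D j a b)
    (hrange : (locPart 𝔪Q L1 : Set L1) = Set.range (iota D j a)) (y : P) :
    ((locEquiv 𝔪Q h hrange y : ↥((locPart 𝔪Q L1).restrictScalars 𝒪)) : L1) = iota D j a y := rfl

/-- the isomorphism is Hecke-equivariant (`u ↦ a` on `P`) -/
theorem locEquiv_smul (h : Roots D j a b)
    (hrange : (locPart 𝔪Q L1 : Set L1) = Set.range (iota D j a))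
    (actA : 𝕋 →ₐ[𝒪] Module.End 𝒪 P)
    (hEa : ∀ (s : 𝕋) (y : P), s • iota D j a y = iota D j a (actA s y)) (s : 𝕋) (y : P) :
    ((locEquiv 𝔪Q h hrange (actA s y) : ↥((locPart 𝔪Q L1).restrictScalars 𝒪)) : L1)
      = s • ((locEquiv 𝔪Q h hrange y : ↥((locPart 𝔪Q L1).restrictScalars 𝒪)) : L1) := by
  rw [locEquiv_apply, locEquiv_apply, hEa]

end Main

/-! ### a provider for `hover` -/

section Hover

variable {𝒪 : Type*} [CommRing 𝒪] {𝕋₀ 𝕋 : Type*} [CommRing 𝕋₀] [CommRing 𝕋]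
  (φ : 𝕋₀ →+* 𝕋) (𝔪Q : Ideal 𝕋) [𝔪Q.IsPrime]
variable {L0 L1 P : Type*} [AddCommGroup L0] [AddCommGroup L1] [AddCommGroup P]
  [Module 𝒪 L0] [Module 𝒪 L1] [Module 𝒪 P] [Module 𝕋 L1] [Module 𝕋₀ L0]

/-- if `f : L1 → L0` is semilinear along the symbols away from `r` (`φ : 𝕋₀ → 𝕋`) it maps the
`𝔪Q`-primary part of `L1` into the `φ⁻¹ 𝔪Q`-primary part of `L0`. -/
theorem apply_mem_locPart_comap (f : L1 →ₗ[𝒪] L0)
    (hf : ∀ (s : 𝕋₀) (ψ : L1), f (φ s • ψ) = s • f ψ) {ψ : L1} (hψ : ψ ∈ locPart 𝔪Q L1) :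
    f ψ ∈ locPart (𝔪Q.comap φ) L0 := by
  rw [mem_locPart]
  intro s hs
  have hs' : φ s ∉ 𝔪Q := fun hmem => hs (Ideal.mem_comap.mpr hmem)
  obtain ⟨ψ', hψ'⟩ := mem_locPart.1 hψ (φ s) hs'
  exact ⟨f ψ', by rw [← hf, hψ']⟩

/-- **`hover`** : when `cores`, `coresD` are semilinear along `φ` and `range j` is the
`φ⁻¹ 𝔪Q`-primary part of `L0`. -/
theorem hover_of_comap {r : 𝒪} (D : Degen r L0 L1) (j : P →ₗ[𝒪] L0)
    (hj : (locPart (𝔪Q.comap φ) L0 : Set L0) ⊆ Set.range j)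
    (hc : ∀ (s : 𝕋₀) (ψ : L1), D.cores (φ s • ψ) = s • D.cores ψ)
    (hd : ∀ (s : 𝕋₀) (ψ : L1), D.coresD (φ s • ψ) = s • D.coresD ψ) :
    ∀ ψ ∈ locPart 𝔪Q L1, ∃ c d : P, D.cores ψ = j c ∧ D.coresD ψ = j d := by
  intro ψ hψ
  obtain ⟨c, hc'⟩ := hj (apply_mem_locPart_comap φ 𝔪Q D.cores hc hψ)
  obtain ⟨d, hd'⟩ := hj (apply_mem_locPart_comap φ 𝔪Q D.coresD hd hψ)
  exact ⟨c, d, hc'.symm, hd'.symm⟩

end Hover

end Fermat.Agent.GB.B8.LevelLoc
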