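/-
GATE-B (S38/S43) / node GB-B8-TWLEVEL, file 6 (helper49): **one Taylor–Wiles prime, STAGE FORM**
(the same shape in and out, so that the removal of several primes from the level is an iteration).

Symbols `𝕋 = MvPolynomial σ 𝒪` acting on two levels `L0` (level `N`) and `L1` (level `N r`) through
`act0`, `act1`; the symbol `X i₀` acts as `T_r` on `L0` and as `U_r` on `L1`; the other symbols act
compatibly with the four degeneracy maps of `D : Degen r L0 L1`.  Residual characters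
`lam0 lam1 : 𝕋 →ₐ[𝒪] κ` agreeing away from `i₀`, `lam0 (X i₀) = α + β`, `lam1 (X i₀) = α`,
`α β = r ≠ 0`, `α ≠ β`, `α² ≠ 1 ≠ β²` in `κ`.

* `Stage 𝕋 L act 𝔪 P` : an injective `j : P → L` with range the `𝔪`-primary part of `L`
  (instance-free `RealLevel.IsLoc`), with an action `actP` of `𝕋` on `P` making `j` equivariant;
  `Stage.base` : the primary part itself.
* `Stage.exists_next` : a stage at level `N` for `ker lam0` gives a stage at level `N r` for
  `ker lam1` ON THE SAME `P`, with the same action of the symbols `≠ i₀`, the new `X i₀` acting as a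
  root `a` of `X² − T_r X + r`, and `j₁ = res_δ ∘ j₀ − res ∘ j₀ ∘ a`.

No hypothesis on Galois representations: the roots come from Hensel's lemma in the Hecke algebra
(`LevelHensel`), and "the primary part of level `N r` lies over the primary part of level `N`" is
proved from the two extra identities `cores ∘ U = r • cores_δ`, `cores_δ ∘ U = T ∘ cores_δ − cores`.
-/
import Mathlib
import Fermat.Agent.GB.B8.LevelLoc
import Fermat.Agent.GB.B8.LevelHensel
import Fermat.Agent.GB.B3.Realizes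

set_option autoImplicit false
set_option linter.unusedSectionVars false
set_option linter.style.haveILetI false

namespace Fermat.Agent.GB.B8.LevelStage

open Fermat.Agent.GB.B8.LevelAbs Fermat.Agent.GB.B8.LevelLoc Fermat.Agent.GB.B8.LevelHensel
open Fermat.Agent.GB.B3.Loc Fermat.Agent.GB.B3.Loc2 Fermat.Agent.GB.B3.RealLevel

/-! ### stages -/

section Stage

variable {𝒪 : Type} [CommRing 𝒪] {𝕋 : Type} [CommRing 𝕋] [Algebra 𝒪 𝕋]

/-- the `𝔪`-primary part of `L` for the action `act`, as an `𝒪`-submodule -/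
def locSub {L : Type*} [AddCommGroup L] [Module 𝒪 L] (act : 𝕋 →ₐ[𝒪] Module.End 𝒪 L)
    (𝔪 : Ideal 𝕋) : Submodule 𝒪 L where
  carrier := {x | IsLoc act 𝔪 x}
  zero_mem' := fun s _ => ⟨0, map_zero _⟩
  add_mem' := by
    intro x y hx hy s hs
    obtain ⟨x', hx'⟩ := hx s hs
    obtain ⟨y', hy'⟩ := hy s hs
    exact ⟨x' + y', by rw [map_add, hx', hy']⟩
  smul_mem' := by
    intro c x hx s hs
    obtain ⟨x', hx'⟩ := hx s hs
    exact ⟨c • x', by rw [map_smul, hx']⟩

theorem mem_locSub {L : Type*} [AddCommGroup L] [Module 𝒪 L] (act : 𝕋 →ₐ[𝒪] Module.End 𝒪 L)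
    (𝔪 : Ideal 𝕋) (x : L) : x ∈ locSub act 𝔪 ↔ IsLoc act 𝔪 x := Iff.rfl

theorem act_mem_locSub {L : Type*} [AddCommGroup L] [Module 𝒪 L] (act : 𝕋 →ₐ[𝒪] Module.End 𝒪 L)
    (𝔪 : Ideal 𝕋) (t : 𝕋) {x : L} (hx : x ∈ locSub act 𝔪) : act t x ∈ locSub act 𝔪 := by
  intro s hs
  obtain ⟨x', hx'⟩ := hx s hs
  refine ⟨act t x', ?_⟩
  rw [← hx', ← Module.End.mul_apply, ← Module.End.mul_apply, ← map_mul, ← map_mul, mul_comm]

/-- **a stage**: `P` realised as the `𝔪`-primary part of `L`, with its Hecke action -/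
structure Stage (𝕋 : Type) [CommRing 𝕋] [Algebra 𝒪 𝕋] (L : Type*) [AddCommGroup L] [Module 𝒪 L]
    (act : 𝕋 →ₐ[𝒪] Module.End 𝒪 L) (𝔪 : Ideal 𝕋) (P : Type*) [AddCommGroup P] [Module 𝒪 P] where
  /-- the embedding -/
  j : P →ₗ[𝒪] L
  inj : Function.Injective j
  range : ∀ x, x ∈ LinearMap.range j ↔ IsLoc act 𝔪 x
  /-- the Hecke action on `P` -/
  actP : 𝕋 →ₐ[𝒪] Module.End 𝒪 P
  j_act : ∀ t y, j (actP t y) = act t (j y)

/-- the restriction of the action to the primary part -/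
def locAct {L : Type*} [AddCommGroup L] [Module 𝒪 L] (act : 𝕋 →ₐ[𝒪] Module.End 𝒪 L)
    (𝔪 : Ideal 𝕋) : 𝕋 →ₐ[𝒪] Module.End 𝒪 (locSub act 𝔪) where
  toFun t := (act t).restrict (fun _ hx => act_mem_locSub act 𝔪 t hx)
  map_one' := by
    refine LinearMap.ext fun x => Subtype.ext ?_
    show act 1 (x : L) = x
    rw [map_one]; rfl
  map_mul' s t := by
    refine LinearMap.ext fun x => Subtype.ext ?_
    show act (s * t) (x : L) = act s (act t (x : L))
    rw [map_mul]; rfl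
  map_zero' := by
    refine LinearMap.ext fun x => Subtype.ext ?_
    show act 0 (x : L) = 0
    rw [map_zero]; rfl
  map_add' s t := by
    refine LinearMap.ext fun x => Subtype.ext ?_
    show act (s + t) (x : L) = act s (x : L) + act t (x : L)
    rw [map_add]; rfl
  commutes' c := by
    refine LinearMap.ext fun x => Subtype.ext ?_
    show act (algebraMap 𝒪 𝕋 c) (x : L) = _
    rw [AlgHom.commutes]
    rfl

theorem locAct_apply {L : Type*} [AddCommGroup L] [Module 𝒪 L] (act : 𝕋 →ₐ[𝒪] Module.End 𝒪 L)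
    (𝔪 : Ideal 𝕋) (t : 𝕋) (x : locSub act 𝔪) : ((locAct act 𝔪 t x : locSub act 𝔪) : L) = act t x :=
  rfl

/-- **the base stage**: the primary part itself -/
def Stage.base {L : Type*} [AddCommGroup L] [Module 𝒪 L] (act : 𝕋 →ₐ[𝒪] Module.End 𝒪 L)
    (𝔪 : Ideal 𝕋) : Stage 𝕋 L act 𝔪 (locSub act 𝔪) where
  j := (locSub act 𝔪).subtype
  inj := Subtype.val_injective
  range x := by
    rw [Submodule.range_subtype]
    rfl
  actP := locAct act 𝔪
  j_act _ _ := rfl

end Stage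

/-! ### stages over a complete local ring -/

section Complete

variable {𝒪 : Type} [CommRing 𝒪] [IsLocalRing 𝒪] [IsNoetherianRing 𝒪]
  [IsAdicComplete (IsLocalRing.maximalIdeal 𝒪) 𝒪]
variable {𝕋 : Type} [CommRing 𝕋] [Algebra 𝒪 𝕋]
variable {L : Type*} [AddCommGroup L] [Module 𝒪 L] [Module.Finite 𝒪 L]
variable {P : Type*} [AddCommGroup P] [Module 𝒪 P]
variable {act : 𝕋 →ₐ[𝒪] Module.End 𝒪 L} {𝔪 : Ideal 𝕋} [h𝔪 : 𝔪.IsMaximal]

theorem Stage.j_mem (S : Stage 𝕋 L act 𝔪 P) (y : P) : IsLoc act 𝔪 (S.j y) :=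
  (S.range _).1 ⟨y, rfl⟩

theorem Stage.j_pow (S : Stage 𝕋 L act 𝔪 P) (t : 𝕋) (m : ℕ) (y : P) :
    S.j ((S.actP t ^ m) y) = act (t ^ m) (S.j y) := by
  rw [← map_pow, S.j_act]

/-- every `s ∉ 𝔪` acts bijectively on `P` -/
theorem Stage.bijective_actP (S : Stage 𝕋 L act 𝔪 P) {s : 𝕋} (hs : s ∉ 𝔪) :
    Function.Bijective (S.actP s) := by
  letI : Module 𝕋 L := Module.compHom L (act : 𝕋 →+* Module.End 𝒪 L)
  haveI : IsScalarTower 𝒪 𝕋 L := ⟨fun c s x => by
    show act (c • s) x = c • act s x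
    rw [map_smul]; rfl⟩
  have hb := bijective_smul_locPart (𝒪 := 𝒪) (L := L) 𝔪 hs
  have hmem : ∀ y : P, S.j y ∈ locPart 𝔪 L := fun y => mem_locPart.2 (S.j_mem y)
  constructor
  · intro y y' hyy
    have h1 : act s (S.j y) = act s (S.j y') := by rw [← S.j_act, ← S.j_act, hyy]
    have h2 : (fun x : locPart 𝔪 L => s • x) ⟨S.j y, hmem y⟩
        = (fun x : locPart 𝔪 L => s • x) ⟨S.j y', hmem y'⟩ := Subtype.ext h1
    exact S.inj (congrArg Subtype.val (hb.1 h2))
  · intro y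
    obtain ⟨z, hz⟩ := hb.2 ⟨S.j y, hmem y⟩
    obtain ⟨y', hy'⟩ := (S.range (z : L)).2 (mem_locPart.1 z.2)
    refine ⟨y', S.inj ?_⟩
    rw [S.j_act, hy']
    exact congrArg Subtype.val hz

/-- every `t ∈ 𝔪` is topologically nilpotent on `P` -/
theorem Stage.exists_pow_mem (S : Stage 𝕋 L act 𝔪 P) {t : 𝕋} (ht : t ∈ 𝔪) :
    ∃ m : ℕ, ∀ y : P,
      (S.actP t ^ m) y ∈ (IsLocalRing.maximalIdeal 𝒪 • ⊤ : Submodule 𝒪 P) := by
  letI : Module 𝕋 L := Module.compHom L (act : 𝕋 →+* Module.End 𝒪 L)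
  haveI : IsScalarTower 𝒪 𝕋 L := ⟨fun c s x => by
    show act (c • s) x = c • act s x
    rw [map_smul]; rfl⟩
  obtain ⟨m, hm⟩ := exists_pow_smul_mem 𝒪 (L := L) 𝔪 t ht
  refine ⟨m, fun y => ?_⟩
  have hrange : (locPart 𝔪 L).restrictScalars 𝒪 = LinearMap.range S.j := by
    ext x
    rw [Submodule.restrictScalars_mem, S.range]
    exact mem_locPart
  have h1 : act (t ^ m) (S.j y)
      ∈ (IsLocalRing.maximalIdeal 𝒪 • (locPart 𝔪 L).restrictScalars 𝒪 : Submodule 𝒪 L) :=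
    hm (S.j y) (mem_locPart.2 (S.j_mem y))
  rw [hrange, ← Submodule.map_top, ← Submodule.map_smul''] at h1
  obtain ⟨w, hw, hwy⟩ := h1
  rw [← S.j_pow] at hwy
  rw [← S.inj hwy]
  exact hw

/-- `P` is finite over `𝒪` -/
theorem Stage.finite (S : Stage 𝕋 L act 𝔪 P) : Module.Finite 𝒪 P := by
  haveI : IsNoetherian 𝒪 L := isNoetherian_of_isNoetherianRing_of_finite 𝒪 L
  haveI : IsNoetherian 𝒪 P := isNoetherian_of_injective S.j S.inj
  infer_instance

end Complete

/-! ### one Taylor–Wiles prime -/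

section Step

open MvPolynomial

variable {𝒪 : Type} [CommRing 𝒪] [IsLocalRing 𝒪] [IsNoetherianRing 𝒪]
  [IsAdicComplete (IsLocalRing.maximalIdeal 𝒪) 𝒪]
variable {σ : Type} [DecidableEq σ] (i₀ : σ)
variable {L0 L1 : Type*} [AddCommGroup L0] [AddCommGroup L1] [Module 𝒪 L0] [Module 𝒪 L1]
  [Module.Finite 𝒪 L0] [Module.Finite 𝒪 L1]
variable {P : Type*} [AddCommGroup P] [Module 𝒪 P]
variable {r : 𝒪} (D : Degen r L0 L1)
variable (act0 : MvPolynomial σ 𝒪 →ₐ[𝒪] Module.End 𝒪 L0)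
  (act1 : MvPolynomial σ 𝒪 →ₐ[𝒪] Module.End 𝒪 L1)

/-- compatibility of the two Hecke actions with the degeneracy package at the symbol `i₀` -/
structure Compat : Prop where
  hT : ∀ x, act0 (X i₀) x = D.T x
  hU : ∀ ψ, act1 (X i₀) ψ = D.U ψ
  res : ∀ i, i ≠ i₀ → ∀ x, D.res (act0 (X i) x) = act1 (X i) (D.res x)
  resD : ∀ i, i ≠ i₀ → ∀ x, D.resD (act0 (X i) x) = act1 (X i) (D.resD x)
  cores : ∀ i, i ≠ i₀ → ∀ ψ, D.cores (act1 (X i) ψ) = act0 (X i) (D.cores ψ)
  coresD : ∀ i, i ≠ i₀ → ∀ ψ, D.coresD (act1 (X i) ψ) = act0 (X i) (D.coresD ψ)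
  cores_U : ∀ ψ, D.cores (D.U ψ) = r • D.coresD ψ
  coresD_U : ∀ ψ, D.coresD (D.U ψ) = D.T (D.coresD ψ) - D.cores ψ

/-- the residual data at a Taylor–Wiles prime -/
structure Resid {κ : Type} [Field κ] [Algebra 𝒪 κ] (lam0 lam1 : MvPolynomial σ 𝒪 →ₐ[𝒪] κ)
    (r α β : 𝒪) : Prop where
  away : ∀ i, i ≠ i₀ → lam1 (X i) = lam0 (X i)
  at0 : lam0 (X i₀) = algebraMap 𝒪 κ (α + β)
  at1 : lam1 (X i₀) = algebraMap 𝒪 κ α
  prod : algebraMap 𝒪 κ (α * β) = algebraMap 𝒪 κ r
  r_ne : algebraMap 𝒪 κ r ≠ 0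
  ne : algebraMap 𝒪 κ α ≠ algebraMap 𝒪 κ β
  sq_α : algebraMap 𝒪 κ (α * α) ≠ 1
  sq_β : algebraMap 𝒪 κ (β * β) ≠ 1

variable {i₀ D act0 act1}
variable {κ : Type} [Field κ] [Algebra 𝒪 κ] {lam0 lam1 : MvPolynomial σ 𝒪 →ₐ[𝒪] κ} {α β : 𝒪}

theorem lam_C (lam : MvPolynomial σ 𝒪 →ₐ[𝒪] κ) (c : 𝒪) : lam (C c) = algebraMap 𝒪 κ c := by
  rw [← MvPolynomial.algebraMap_eq, AlgHom.commutes]

theorem Resid.α_ne (hR : Resid i₀ lam0 lam1 r α β) : algebraMap 𝒪 κ α ≠ 0 := by
  intro h
  apply hR.r_ne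
  rw [← hR.prod, map_mul, h, zero_mul]

/-- `ker β` is stable under the Hecke action of level `N r` -/
theorem Compat.kerBeta_stable (hC : Compat i₀ D act0 act1) (s : MvPolynomial σ 𝒪) (ν : L1)
    (h1 : D.cores ν = 0) (h2 : D.coresD ν = 0) :
    D.cores (act1 s ν) = 0 ∧ D.coresD (act1 s ν) = 0 := by
  induction s using MvPolynomial.induction_on generalizing ν with
  | C c =>
    rw [← MvPolynomial.algebraMap_eq, AlgHom.commutes, Module.algebraMap_end_apply, map_smul,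
      map_smul, h1, h2, smul_zero]
    exact ⟨rfl, rfl⟩
  | add p q hp hq =>
    rw [map_add, LinearMap.add_apply, map_add, map_add, (hp ν h1 h2).1, (hp ν h1 h2).2,
      (hq ν h1 h2).1, (hq ν h1 h2).2, add_zero]
    exact ⟨rfl, rfl⟩
  | mul_X p i hp =>
    rw [map_mul, Module.End.mul_apply]
    by_cases hi : i = i₀
    · subst hi
      rw [hC.hU]
      exact hp _ (D.cores_U_of_ker ν h1 h2) (D.coresD_U_of_ker ν h1 h2)
    · refine hp _ ?_ ?_
      · rw [hC.cores i hi, h1, map_zero]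
      · rw [hC.coresD i hi, h2, map_zero]

/-- **the primary part of level `N r` lies over the primary part of level `N`** -/
theorem Compat.isLoc_cores (hC : Compat i₀ D act0 act1) (hR : Resid i₀ lam0 lam1 r α β)
    [h1 : (RingHom.ker (lam1 : MvPolynomial σ 𝒪 →+* κ)).IsMaximal]
    {ψ : L1} (hψ : IsLoc act1 (RingHom.ker (lam1 : MvPolynomial σ 𝒪 →+* κ)) ψ) :
    IsLoc act0 (RingHom.ker (lam0 : MvPolynomial σ 𝒪 →+* κ)) (D.cores ψ) ∧
      IsLoc act0 (RingHom.ker (lam0 : MvPolynomial σ 𝒪 →+* κ)) (D.coresD ψ) := by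
  letI : Module (MvPolynomial σ 𝒪) L1 :=
    Module.compHom L1 (act1 : MvPolynomial σ 𝒪 →+* Module.End 𝒪 L1)
  haveI : IsScalarTower 𝒪 (MvPolynomial σ 𝒪) L1 := ⟨fun c s x => by
    show act1 (c • s) x = c • act1 s x
    rw [map_smul]; rfl⟩
  set 𝔪₁ : Ideal (MvPolynomial σ 𝒪) := RingHom.ker (lam1 : MvPolynomial σ 𝒪 →+* κ) with h𝔪₁
  have hψ' : ψ ∈ locPart 𝔪₁ L1 := mem_locPart.2 hψ
  by_cases hne : locPart 𝔪₁ L1 = ⊥
  · have h0 : ψ ∈ (⊥ : Submodule (MvPolynomial σ 𝒪) L1) := (le_of_eq hne) hψ'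
    rw [(Submodule.mem_bot _).1 h0, map_zero, map_zero]
    exact ⟨fun s _ => ⟨0, map_zero _⟩, fun s _ => ⟨0, map_zero _⟩⟩
  · have hX : (X i₀ : MvPolynomial σ 𝒪) ∉ 𝔪₁ := by
      rw [h𝔪₁, RingHom.mem_ker]
      show lam1 (X i₀) ≠ 0
      rw [hR.at1]
      exact hR.α_ne
    obtain ⟨u, hu⟩ := exists_inv_on_locPart 𝒪 (L := L1) 𝔪₁ hX
    have hlamu : lam1 u * lam1 (X i₀) = 1 := by
      have hann : u * X i₀ - 1 ∈ Module.annihilator (MvPolynomial σ 𝒪) (locPart 𝔪₁ L1) := by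
        rw [Module.mem_annihilator]
        rintro ⟨x, hx⟩
        apply Subtype.ext
        show (u * X i₀ - 1) • x = 0
        rw [sub_smul, one_smul, mul_smul, hu x hx, sub_self]
      have hmem := annihilator_locPart_le 𝒪 (L := L1) 𝔪₁ hne hann
      rw [h𝔪₁, RingHom.mem_ker] at hmem
      have : lam1 (u * X i₀ - 1) = 0 := hmem
      rw [map_sub, map_mul, map_one, sub_eq_zero] at this
      exact this
    set ρ : MvPolynomial σ 𝒪 →ₐ[𝒪] MvPolynomial σ 𝒪 :=
      MvPolynomial.aeval (Function.update (X : σ → MvPolynomial σ 𝒪) i₀ (X i₀ + C r * u)) with hρ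
    have hρ₀ : ρ (X i₀) = X i₀ + C r * u := by
      rw [hρ, MvPolynomial.aeval_X, Function.update_self]
    have hρi : ∀ i, i ≠ i₀ → ρ (X i) = X i := by
      intro i hi
      rw [hρ, MvPolynomial.aeval_X, Function.update_of_ne hi]
    have hlamρ : lam1.comp ρ = lam0 := by
      apply MvPolynomial.algHom_ext
      intro i
      rw [AlgHom.comp_apply]
      by_cases hi : i = i₀
      · subst hi
        rw [hρ₀, map_add, map_mul, lam_C, hR.at0, map_add]
        have hα := hR.α_ne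
        have h3 : lam1 u = (algebraMap 𝒪 κ α)⁻¹ := by
          rw [hR.at1] at hlamu
          exact eq_inv_of_mul_eq_one_left hlamu
        rw [h3, hR.at1, ← hR.prod, map_mul]
        field_simp
      · rw [hρi i hi, hR.away i hi]
    -- equivariance of `cores`, `coresD` along `ρ`
    have key : ∀ (s : MvPolynomial σ 𝒪) (ψ : L1), ψ ∈ locPart 𝔪₁ L1 →
        D.cores (act1 (ρ s) ψ) = act0 s (D.cores ψ) ∧
          D.coresD (act1 (ρ s) ψ) = act0 s (D.coresD ψ) := by
      intro s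
      induction s using MvPolynomial.induction_on with
      | C c =>
        intro ψ _
        have e1 : ρ (C c) = algebraMap 𝒪 _ c := by
          rw [← MvPolynomial.algebraMap_eq, AlgHom.commutes]
        rw [e1, ← MvPolynomial.algebraMap_eq, AlgHom.commutes, AlgHom.commutes,
          Module.algebraMap_end_apply, Module.algebraMap_end_apply, map_smul, map_smul]
        exact ⟨rfl, rfl⟩
      | add p q hp hq =>
        intro ψ hψ
        rw [map_add, map_add, map_add, LinearMap.add_apply, LinearMap.add_apply, map_add, map_add,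
          (hp ψ hψ).1, (hp ψ hψ).2, (hq ψ hψ).1, (hq ψ hψ).2]
        exact ⟨rfl, rfl⟩
      | mul_X p i hp =>
        intro ψ hψ
        have hmem : act1 (ρ (X i)) ψ ∈ locPart 𝔪₁ L1 :=
          (locPart 𝔪₁ L1).smul_mem (ρ (X i)) hψ
        have hgen : D.cores (act1 (ρ (X i)) ψ) = act0 (X i) (D.cores ψ) ∧
            D.coresD (act1 (ρ (X i)) ψ) = act0 (X i) (D.coresD ψ) := by
          by_cases hi : i = i₀
          · subst hi
            -- `ψ = U ψ⁻`
            have hUm : D.U (act1 u ψ) = ψ := by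
              rw [← hC.hU]
              have := hu ψ hψ
              show act1 (X i) (act1 u ψ) = ψ
              rw [← Module.End.mul_apply, ← map_mul, mul_comm, map_mul, Module.End.mul_apply]
              exact this
            have e1 : act1 (ρ (X i)) ψ = D.U ψ + r • act1 u ψ := by
              rw [hρ₀, map_add, LinearMap.add_apply, hC.hU, map_mul, Module.End.mul_apply,
                ← MvPolynomial.algebraMap_eq, AlgHom.commutes, Module.algebraMap_end_apply]
            have c1 : D.cores ψ = r • D.coresD (act1 u ψ) := by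
              conv_lhs => rw [← hUm]
              exact hC.cores_U _
            have c2 : D.coresD ψ = D.T (D.coresD (act1 u ψ)) - D.cores (act1 u ψ) := by
              conv_lhs => rw [← hUm]
              exact hC.coresD_U _
            constructor
            · rw [e1, map_add, map_smul, hC.cores_U, hC.hT]
              conv_rhs => rw [c1]
              conv_lhs => rw [c2]
              rw [map_smul, smul_sub, sub_add_cancel]
            · rw [e1, map_add, map_smul, hC.coresD_U, hC.hT]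
              conv_lhs => rw [c1]
              rw [sub_add_cancel]
          · rw [hρi i hi, hC.cores i hi, hC.coresD i hi]
            exact ⟨rfl, rfl⟩
        have e0 : ρ (p * X i) = ρ p * ρ (X i) := map_mul _ _ _
        constructor
        · rw [e0, map_mul, Module.End.mul_apply, (hp _ hmem).1, hgen.1, map_mul,
            Module.End.mul_apply]
        · rw [e0, map_mul, Module.End.mul_apply, (hp _ hmem).2, hgen.2, map_mul,
            Module.End.mul_apply]
    -- divisibility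
    have hdiv : ∀ s₀ : MvPolynomial σ 𝒪, s₀ ∉ RingHom.ker (lam0 : MvPolynomial σ 𝒪 →+* κ) →
        ∃ ψ' ∈ locPart 𝔪₁ L1, act1 (ρ s₀) ψ' = ψ := by
      intro s₀ hs₀
      have hρs : ρ s₀ ∉ 𝔪₁ := by
        rw [h𝔪₁, RingHom.mem_ker]
        intro h0
        apply hs₀
        rw [RingHom.mem_ker]
        have := congrArg (fun f : MvPolynomial σ 𝒪 →ₐ[𝒪] κ => f s₀) hlamρ
        simp only [AlgHom.comp_apply] at this
        show lam0 s₀ = 0
        rw [← this]
        exact h0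
      obtain ⟨ψ', hψ'eq⟩ := (bijective_smul_locPart (𝒪 := 𝒪) (L := L1) 𝔪₁ hρs).2 ⟨ψ, hψ'⟩
      exact ⟨ψ', ψ'.2, congrArg Subtype.val hψ'eq⟩
    constructor
    · intro s₀ hs₀
      obtain ⟨ψ', hψ'mem, hψ'eq⟩ := hdiv s₀ hs₀
      exact ⟨D.cores ψ', by rw [← (key s₀ ψ' hψ'mem).1, hψ'eq]⟩
    · intro s₀ hs₀
      obtain ⟨ψ', hψ'mem, hψ'eq⟩ := hdiv s₀ hs₀
      exact ⟨D.coresD ψ', by rw [← (key s₀ ψ' hψ'mem).2, hψ'eq]⟩

/-- **One Taylor–Wiles prime, stage form.** -/
theorem Stage.exists_next (hC : Compat i₀ D act0 act1) (hR : Resid i₀ lam0 lam1 r α β)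
    [h0 : (RingHom.ker (lam0 : MvPolynomial σ 𝒪 →+* κ)).IsMaximal]
    [h1 : (RingHom.ker (lam1 : MvPolynomial σ 𝒪 →+* κ)).IsMaximal]
    (S0 : Stage (MvPolynomial σ 𝒪) L0 act0 (RingHom.ker (lam0 : MvPolynomial σ 𝒪 →+* κ)) P) :
    ∃ (S1 : Stage (MvPolynomial σ 𝒪) L1 act1 (RingHom.ker (lam1 : MvPolynomial σ 𝒪 →+* κ)) P)
      (ρ : MvPolynomial σ 𝒪 →ₐ[𝒪] MvPolynomial σ 𝒪),
      S1.actP = S0.actP.comp ρ ∧ (∀ i, i ≠ i₀ → ρ (X i) = X i) ∧ lam0.comp ρ = lam1 ∧
      (∀ y, S1.j y = D.resD (S0.j y) - D.res (S0.j (S1.actP (X i₀) y))) ∧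
      (∀ y, S1.actP (X i₀) (S1.actP (X i₀) y) - S0.actP (X i₀) (S1.actP (X i₀) y) + r • y = 0) := by
  classical
  haveI hPfin : Module.Finite 𝒪 P := S0.finite
  letI : Module (MvPolynomial σ 𝒪) L0 :=
    Module.compHom L0 (act0 : MvPolynomial σ 𝒪 →+* Module.End 𝒪 L0)
  haveI : IsScalarTower 𝒪 (MvPolynomial σ 𝒪) L0 := ⟨fun c s x => by
    show act0 (c • s) x = c • act0 s x
    rw [map_smul]; rfl⟩
  letI : Module (MvPolynomial σ 𝒪) L1 :=
    Module.compHom L1 (act1 : MvPolynomial σ 𝒪 →+* Module.End 𝒪 L1)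
  haveI : IsScalarTower 𝒪 (MvPolynomial σ 𝒪) L1 := ⟨fun c s x => by
    show act1 (c • s) x = c • act1 s x
    rw [map_smul]; rfl⟩
  have hker0 : ∀ s : MvPolynomial σ 𝒪, s ∈ (RingHom.ker (lam0 : MvPolynomial σ 𝒪 →+* κ)) ↔ lam0 s = 0 := fun s => RingHom.mem_ker
  have hker1 : ∀ s : MvPolynomial σ 𝒪, s ∈ (RingHom.ker (lam1 : MvPolynomial σ 𝒪 →+* κ)) ↔ lam1 s = 0 := fun s => RingHom.mem_ker
  have halg0 : ∀ c : 𝒪, lam0 (algebraMap 𝒪 (MvPolynomial σ 𝒪) c) = algebraMap 𝒪 κ c :=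
    fun c => AlgHom.commutes _ _
  have halg1 : ∀ c : 𝒪, lam1 (algebraMap 𝒪 (MvPolynomial σ 𝒪) c) = algebraMap 𝒪 κ c :=
    fun c => AlgHom.commutes _ _
  -- Hensel roots
  obtain ⟨aT, bT, hsum, hprod, haT, hbT⟩ := exists_hensel_roots 𝒪 (L := L0) (RingHom.ker (lam0 : MvPolynomial σ 𝒪 →+* κ)) (X i₀) r α β
    (by rw [hker0, map_sub, halg0, hR.at0, sub_self])
    (by rw [hker0, halg0, map_sub, hR.prod, sub_self])
    (by rw [hker0, halg0, map_sub, sub_eq_zero]; exact hR.ne)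
  have hlamaT : lam0 aT = algebraMap 𝒪 κ α := by
    have := (hker0 _).1 haT
    rw [map_sub, halg0, sub_eq_zero] at this
    exact this
  have hlambT : lam0 bT = algebraMap 𝒪 κ β := by
    have := (hker0 _).1 hbT
    rw [map_sub, halg0, sub_eq_zero] at this
    exact this
  set a : Module.End 𝒪 P := S0.actP aT with ha
  set b : Module.End 𝒪 P := S0.actP bT with hb
  have hcomm : ∀ (s t : MvPolynomial σ 𝒪) (y : P),
      S0.actP s (S0.actP t y) = S0.actP t (S0.actP s y) := by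
    intro s t y
    rw [← Module.End.mul_apply, ← Module.End.mul_apply, ← map_mul, ← map_mul, mul_comm]
  have hbij : ∀ s : MvPolynomial σ 𝒪, lam0 s ≠ 0 → Function.Bijective (S0.actP s) :=
    fun s hs => S0.bijective_actP (fun hmem => hs ((hker0 s).1 hmem))
  have hroots : Roots D S0.j a b := by
    refine ⟨S0.inj, ?_, ?_, ?_, ?_, ?_, ?_⟩
    · intro y
      rw [← hC.hT, ← S0.j_act, ← hsum, map_add]
      rfl
    · intro y
      apply S0.inj
      rw [ha, hb, S0.j_act, S0.j_act, ← Module.End.mul_apply, ← map_mul, map_smul]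
      exact hprod (S0.j y) (mem_locPart.2 (S0.j_mem y))
    · intro y
      exact hcomm aT bT y
    · have e : (fun y : P => y - a (a y)) = S0.actP (1 - aT * aT) := by
        funext y
        rw [map_sub, map_one, map_mul]
        rfl
      rw [e]
      apply hbij
      rw [map_sub, map_one, map_mul, hlamaT, ← map_mul, sub_ne_zero]
      exact fun h => hR.sq_α h.symm
    · have e : (fun y : P => y - b (b y)) = S0.actP (1 - bT * bT) := by
        funext y
        rw [map_sub, map_one, map_mul]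
        rfl
      rw [e]
      apply hbij
      rw [map_sub, map_one, map_mul, hlambT, ← map_mul, sub_ne_zero]
      exact fun h => hR.sq_β h.symm
    · have e : (fun y : P => a y - b y) = S0.actP (aT - bT) := by
        funext y
        rw [map_sub]
        rfl
      rw [e]
      apply hbij
      rw [map_sub, hlamaT, hlambT, sub_ne_zero]
      exact hR.ne
  -- the two substitutions
  set ρA : MvPolynomial σ 𝒪 →ₐ[𝒪] MvPolynomial σ 𝒪 :=
    MvPolynomial.aeval (Function.update (X : σ → MvPolynomial σ 𝒪) i₀ aT) with hρA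
  set ρB : MvPolynomial σ 𝒪 →ₐ[𝒪] MvPolynomial σ 𝒪 :=
    MvPolynomial.aeval (Function.update (X : σ → MvPolynomial σ 𝒪) i₀ bT) with hρB
  have hρA₀ : ρA (X i₀) = aT := by rw [hρA, MvPolynomial.aeval_X, Function.update_self]
  have hρB₀ : ρB (X i₀) = bT := by rw [hρB, MvPolynomial.aeval_X, Function.update_self]
  have hρAi : ∀ i, i ≠ i₀ → ρA (X i) = X i := by
    intro i hi
    rw [hρA, MvPolynomial.aeval_X, Function.update_of_ne hi]
  have hρBi : ∀ i, i ≠ i₀ → ρB (X i) = X i := by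
    intro i hi
    rw [hρB, MvPolynomial.aeval_X, Function.update_of_ne hi]
  have hlamρ : lam0.comp ρA = lam1 := by
    apply MvPolynomial.algHom_ext
    intro i
    rw [AlgHom.comp_apply]
    by_cases hi : i = i₀
    · subst hi
      rw [hρA₀, hlamaT, hR.at1]
    · rw [hρAi i hi, hR.away i hi]
  have hlamρ' : ∀ s, lam1 s = lam0 (ρA s) := by
    intro s
    rw [← hlamρ]
    rfl
  set actA : MvPolynomial σ 𝒪 →ₐ[𝒪] Module.End 𝒪 P := S0.actP.comp ρA with hactA
  set actB : MvPolynomial σ 𝒪 →ₐ[𝒪] Module.End 𝒪 P := S0.actP.comp ρB with hactB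
  -- equivariance of `ιa`, `ιb`
  have hE : ∀ (c : MvPolynomial σ 𝒪) (ρ : MvPolynomial σ 𝒪 →ₐ[𝒪] MvPolynomial σ 𝒪)
      (a' b' : Module.End 𝒪 P), Roots D S0.j a' b' → a' = S0.actP c → ρ (X i₀) = c →
      (∀ i, i ≠ i₀ → ρ (X i) = X i) →
      ∀ (s : MvPolynomial σ 𝒪) (y : P),
        s • iota D S0.j a' y = iota D S0.j a' ((S0.actP.comp ρ) s y) := by
    intro c ρ a' b' hr' ha' hρ₀ hρi
    refine equivariant_of_adjoin (S0.actP.comp ρ) (iota D S0.j a') (Set.range X)
      (MvPolynomial.adjoin_range_X) ?_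
    rintro _ ⟨i, rfl⟩ y
    show act1 (X i) (iota D S0.j a' y) = iota D S0.j a' (S0.actP (ρ (X i)) y)
    by_cases hi : i = i₀
    · subst hi
      rw [hC.hU, U_iota hr', hρ₀, ha']
    · rw [hρi i hi, iota_apply, iota_apply, map_sub, ← hC.resD i hi, ← hC.res i hi,
        ← S0.j_act, ← S0.j_act, ha', hcomm]
  have hEa := hE aT ρA a b hroots ha hρA₀ hρAi
  have hEb := hE bT ρB b a hroots.symm hb hρB₀ hρBi
  -- `hover`
  have hover : ∀ ψ ∈ locPart (RingHom.ker (lam1 : MvPolynomial σ 𝒪 →+* κ)) L1, ∃ c d : P, D.cores ψ = S0.j c ∧ D.coresD ψ = S0.j d := by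
    intro ψ hψ
    obtain ⟨hc, hd⟩ := hC.isLoc_cores hR (mem_locPart.1 hψ)
    obtain ⟨c, hc'⟩ := (S0.range _).2 hc
    obtain ⟨d, hd'⟩ := (S0.range _).2 hd
    exact ⟨c, d, hc'.symm, hd'.symm⟩
  -- the auxiliary elements
  obtain ⟨m, hm⟩ := S0.exists_pow_mem hbT
  have hrange := locPart_eq_range_iota (RingHom.ker (lam1 : MvPolynomial σ 𝒪 →+* κ)) hroots actA actB hEa hEb
    (fun s ν h1 h2 => hC.kerBeta_stable s ν h1 h2) hover
    (fun s hs => (hbij (ρA s) (by
      rw [← hlamρ']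
      exact fun h => hs ((hker1 s).2 h))).2)
    (X i₀ - algebraMap 𝒪 _ β)
    (by
      rw [hker1, map_sub, halg1, hR.at1, sub_eq_zero]
      exact hR.ne)
    m
    (by
      intro y
      have e : actB (X i₀ - algebraMap 𝒪 _ β) = S0.actP (bT - algebraMap 𝒪 _ β) := by
        rw [hactB, AlgHom.comp_apply, map_sub, hρB₀, AlgHom.commutes]
      rw [e]
      exact hm y)
    (X i₀ * X i₀ - 1)
    (by
      rw [hker1, map_sub, map_mul, map_one, hR.at1, ← map_mul, sub_eq_zero]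
      exact hR.sq_α)
    (by
      intro ν h1 h2
      show act1 (X i₀ * X i₀ - 1) ν = 0
      rw [map_sub, map_mul, map_one, LinearMap.sub_apply, Module.End.mul_apply, hC.hU, hC.hU,
        D.U_U_of_ker ν h1 h2]
      exact sub_self ν)
  refine ⟨{ j := iota D S0.j a
            inj := iota_injective hroots
            range := ?_
            actP := actA
            j_act := ?_ }, ρA, hactA, hρAi, hlamρ, ?_, ?_⟩
  · intro x
    constructor
    · rintro ⟨y, rfl⟩
      have hmem : iota D S0.j a y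
          ∈ (locPart (RingHom.ker (lam1 : MvPolynomial σ 𝒪 →+* κ)) L1 : Set L1) := by
        rw [hrange]
        exact ⟨y, rfl⟩
      exact mem_locPart.1 hmem
    · intro hx
      have hmem : x ∈ (locPart (RingHom.ker (lam1 : MvPolynomial σ 𝒪 →+* κ)) L1 : Set L1) :=
        mem_locPart.2 hx
      rw [hrange] at hmem
      exact hmem
  · intro t y
    exact (hEa t y).symm
  · intro y
    show iota D S0.j a y = D.resD (S0.j y) - D.res (S0.j (actA (X i₀) y))
    rw [iota_apply, hactA, AlgHom.comp_apply, hρA₀]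
  · intro y
    show actA (X i₀) (actA (X i₀) y) - S0.actP (X i₀) (actA (X i₀) y) + r • y = 0
    have e1 : actA (X i₀) = a := by rw [hactA, AlgHom.comp_apply, hρA₀]
    have e2 : S0.actP (X i₀) = a + b := by rw [← hsum, map_add]
    rw [e1, e2, LinearMap.add_apply, hroots.prod' y]
    abel

end Step

end Fermat.Agent.GB.B8.LevelStage
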