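/-
GATE-B (S38/S43) / node GB-B8-TWLEVEL, file 7 (helper49): **the uniform Hecke action on
`Hom(Γ₀(N), O)` and the concrete `LevelStage.Compat`** for `Γ₀(N) ↔ Γ₀(N q)`.

* `genOp O N l` : `U_l` if `l ∣ N`, `T_l` if `l ∤ N`, as an `O`-linear endomorphism of
  `Hom(Γ₀(N), O)`; `genOp_comm` (helper80's `CommGamma0`);
* `actN O pr hpr N : MvPolynomial σ O →ₐ[O] End_O Hom(Γ₀(N), O)`, `X s ↦ genOp O N (pr s)`, for ANY
  family of primes `pr : σ → ℕ` — the SAME symbol algebra at every level: a symbol acts as `T` below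
  the level where its prime enters and as `U` above;
* `cores_U`, `coresD_U` : `cores ∘ U_q = q • cores_δ`, `cores_δ ∘ U_q = T_q ∘ cores_δ − cores`
  (from `res ∘ cores_δ = U_q + w_q`);
* `compat` : `LevelStage.Compat i₀ (degen hqN O O) (actN … N) (actN … (N * pr i₀))` for injective
  `pr` — all four degeneracy maps commute with the symbols `≠ i₀` (`T_ℓ`: GM/B/EquivCores, GM/B5/WT;
  `U_r`: GB/B8/LevelU);
* `finite_hom` : `Hom(Γ₀(N), O)` is finite over a noetherian `O` (helper46's HomFree).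
-/
import Mathlib
import Fermat.Agent.GB.B8.LevelStage
import Fermat.Agent.GB.B8.LevelGamma0
import Fermat.Agent.GB.B8.LevelU
import Fermat.Agent.GB.B3.HeckeAct
import Fermat.Agent.GB.B3.HomFree

set_option autoImplicit false
set_option linter.unusedSectionVars false
set_option linter.style.haveILetI false

open scoped MatrixGroups
open CongruenceSubgroup Matrix Matrix.SpecialLinearGroup
open Fermat.Agent.S16_helper49
open Fermat.Agent.GM.B
open Fermat.Agent.GB.B8.LevelAbs Fermat.Agent.GB.B8.LevelGamma0 Fermat.Agent.GB.B8.LevelStage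
open Fermat.Agent.GB.B3.HeckeAct

namespace Fermat.Agent.GB.B8.LevelGen

variable (O : Type) [CommRing O]

/-! ### the generators -/

/-- `U_l` (if `l ∣ N`) or `T_l` (if `l ∤ N`) on `Hom(Γ₀(N), O)` -/
noncomputable def genOp (N l : ℕ) [Fact l.Prime] : Module.End O (Additive (Gamma0 N) →+ O) :=
  if h : l ∣ N then opLin O (A := O) (Fermat.Agent.GM.B5.uSys h)
  else opLin O (A := O) (heckeSys h)

theorem genOp_of_dvd {N l : ℕ} [Fact l.Prime] (h : l ∣ N) (φ : Additive (Gamma0 N) →+ O) :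
    genOp O N l φ = cohU h O φ := by
  unfold genOp
  rw [dif_pos h]
  show (Fermat.Agent.GM.B5.uSys h).op O φ = _
  rw [Fermat.Agent.GM.B5.uSys_op]

theorem genOp_of_not_dvd {N l : ℕ} [Fact l.Prime] (h : ¬ l ∣ N) (φ : Additive (Gamma0 N) →+ O) :
    genOp O N l φ = cohT h O φ := by
  unfold genOp
  rw [dif_neg h]
  show (heckeSys h).op O φ = _
  rw [heckeSys_op]

theorem genOp_comm (N l l' : ℕ) [Fact l.Prime] [Fact l'.Prime] :
    genOp O N l * genOp O N l' = genOp O N l' * genOp O N l := by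
  by_cases hll : l = l'
  · subst hll
    rfl
  refine LinearMap.ext fun φ => ?_
  rw [Module.End.mul_apply, Module.End.mul_apply]
  have hl1 : 1 < l := (Fact.out : l.Prime).one_lt
  have hl'1 : 1 < l' := (Fact.out : l'.Prime).one_lt
  have hcop : Nat.Coprime l l' := (Nat.coprime_primes Fact.out Fact.out).mpr hll
  by_cases h : l ∣ N <;> by_cases h' : l' ∣ N
  · rw [genOp_of_dvd O h', genOp_of_dvd O h, genOp_of_dvd O h, genOp_of_dvd O h']
    exact Fermat.Agent.GB.B3.CommGamma0.cohU_comm h' h hl'1 hl1 hcop.symm O φ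
  · rw [genOp_of_not_dvd O h', genOp_of_dvd O h, genOp_of_dvd O h, genOp_of_not_dvd O h']
    exact Fermat.Agent.GB.B3.CommGamma0.cohU_cohT_comm h' h O φ
  · rw [genOp_of_dvd O h', genOp_of_not_dvd O h, genOp_of_not_dvd O h, genOp_of_dvd O h']
    exact (Fermat.Agent.GB.B3.CommGamma0.cohU_cohT_comm h h' O φ).symm
  · rw [genOp_of_not_dvd O h', genOp_of_not_dvd O h, genOp_of_not_dvd O h, genOp_of_not_dvd O h']
    exact Fermat.Agent.GB.B3.CommGamma0.cohT_comm h' h O φ

/-! ### the action of the symbols -/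

section Act

variable {σ : Type} (pr : σ → ℕ) (hpr : ∀ s, (pr s).Prime)

/-- the generator attached to the symbol `s` at level `N` -/
noncomputable def gen (N : ℕ) (s : σ) : Module.End O (Additive (Gamma0 N) →+ O) :=
  @genOp O _ N (pr s) ⟨hpr s⟩

theorem gen_comm (N : ℕ) (s t : σ) : gen O pr hpr N s * gen O pr hpr N t
    = gen O pr hpr N t * gen O pr hpr N s :=
  @genOp_comm O _ N (pr s) (pr t) ⟨hpr s⟩ ⟨hpr t⟩

/-- **the uniform action of the Hecke symbols at level `N`** -/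
noncomputable def actN (N : ℕ) :
    MvPolynomial σ O →ₐ[O] Module.End O (Additive (Gamma0 N) →+ O) :=
  polyAct (gen O pr hpr N) (gen_comm O pr hpr N)

theorem actN_X (N : ℕ) (s : σ) : actN O pr hpr N (MvPolynomial.X s) = gen O pr hpr N s :=
  polyAct_X _ _ s

theorem actN_X_of_dvd {N : ℕ} (s : σ) (h : pr s ∣ N) (φ : Additive (Gamma0 N) →+ O) :
    haveI : Fact (pr s).Prime := ⟨hpr s⟩
    actN O pr hpr N (MvPolynomial.X s) φ = cohU h O φ := by
  haveI : Fact (pr s).Prime := ⟨hpr s⟩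
  rw [actN_X]
  exact genOp_of_dvd O h φ

theorem actN_X_of_not_dvd {N : ℕ} (s : σ) (h : ¬ pr s ∣ N) (φ : Additive (Gamma0 N) →+ O) :
    haveI : Fact (pr s).Prime := ⟨hpr s⟩
    actN O pr hpr N (MvPolynomial.X s) φ = cohT h O φ := by
  haveI : Fact (pr s).Prime := ⟨hpr s⟩
  rw [actN_X]
  exact genOp_of_not_dvd O h φ

end Act

/-! ### the two extra identities -/

section Extra

variable {N q : ℕ} [Fact q.Prime] (hqN : ¬ q ∣ N) {A : Type*} [AddCommGroup A]

/-- **`cores ∘ U_q = q • cores_δ`** -/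
theorem cores_U (ψ : Additive (Gamma0 (N * q)) →+ A) :
    cores A hqN (cohU (Fermat.Agent.GM.B5.dvd_mul_self_right (N := N) (q := q)) A ψ)
      = q • coresD A hqN ψ := by
  have h := res_coresD hqN ψ
  have h1 : cohU (Fermat.Agent.GM.B5.dvd_mul_self_right (N := N) (q := q)) A ψ
      = res A N q (coresD A hqN ψ) - wOp hqN A ψ := eq_sub_of_add_eq h.symm
  rw [h1, map_sub, cores_comp_res, cores_wOp, succ_nsmul, add_sub_cancel_right]

/-- **`cores_δ ∘ U_q = T_q ∘ cores_δ − cores`** -/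
theorem coresD_U (ψ : Additive (Gamma0 (N * q)) →+ A) :
    coresD A hqN (cohU (Fermat.Agent.GM.B5.dvd_mul_self_right (N := N) (q := q)) A ψ)
      = cohT hqN A (coresD A hqN ψ) - cores A hqN ψ := by
  have h := res_coresD hqN ψ
  have h1 : cohU (Fermat.Agent.GM.B5.dvd_mul_self_right (N := N) (q := q)) A ψ
      = res A N q (coresD A hqN ψ) - wOp hqN A ψ := eq_sub_of_add_eq h.symm
  rw [h1, map_sub, coresD_comp_res, coresD_wOp]

end Extra

/-! ### the concrete compatibility -/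

section Compat

variable {σ : Type} [DecidableEq σ] (pr : σ → ℕ) (hpr : ∀ s, (pr s).Prime)
  (hinj : Function.Injective pr)

include hinj in
/-- **the degeneracy package at the prime of the symbol `i₀` is compatible with the uniform Hecke
actions at the levels `N` and `N * pr i₀`** -/
theorem compat {N : ℕ} (i₀ : σ) (hqN : ¬ pr i₀ ∣ N) :
    haveI : Fact (pr i₀).Prime := ⟨hpr i₀⟩
    Compat i₀ (degen hqN O O) (actN O pr hpr N) (actN O pr hpr (N * pr i₀)) := by
  haveI : Fact (pr i₀).Prime := ⟨hpr i₀⟩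
  have hne : ∀ i, i ≠ i₀ → pr i ≠ pr i₀ := fun i hi h => hi (hinj h)
  have hnd : ∀ i, i ≠ i₀ → ¬ pr i ∣ N → ¬ pr i ∣ N * pr i₀ := by
    intro i hi h hd
    rcases (Nat.Prime.dvd_mul (hpr i)).1 hd with h1 | h1
    · exact h h1
    · exact hne i hi ((Nat.prime_dvd_prime_iff_eq (hpr i) (hpr i₀)).1 h1)
  refine ⟨?_, ?_, ?_, ?_, ?_, ?_, ?_, ?_⟩
  · intro x
    rw [actN_X_of_not_dvd O pr hpr i₀ hqN, degen_T]
  · intro ψ
    rw [actN_X_of_dvd O pr hpr i₀ (Fermat.Agent.GM.B5.dvd_mul_self_right (N := N) (q := pr i₀)),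
      degen_U]
  · intro i hi x
    haveI : Fact (pr i).Prime := ⟨hpr i⟩
    rw [degen_res, degen_res]
    by_cases h : pr i ∣ N
    · rw [actN_X_of_dvd O pr hpr i h, actN_X_of_dvd O pr hpr i (Dvd.dvd.mul_right h (pr i₀))]
      exact LevelU.res_cohU h x
    · rw [actN_X_of_not_dvd O pr hpr i h, actN_X_of_not_dvd O pr hpr i (hnd i hi h)]
      exact res_cohT (hnd i hi h) x
  · intro i hi x
    haveI : Fact (pr i).Prime := ⟨hpr i⟩
    rw [degen_resD, degen_resD]
    by_cases h : pr i ∣ N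
    · rw [actN_X_of_dvd O pr hpr i h, actN_X_of_dvd O pr hpr i (Dvd.dvd.mul_right h (pr i₀))]
      exact LevelU.resD_cohU hqN h x
    · rw [actN_X_of_not_dvd O pr hpr i h, actN_X_of_not_dvd O pr hpr i (hnd i hi h)]
      exact Fermat.Agent.GM.B5.resD_cohT hqN (hnd i hi h) x
  · intro i hi ψ
    haveI : Fact (pr i).Prime := ⟨hpr i⟩
    rw [degen_cores, degen_cores]
    by_cases h : pr i ∣ N
    · rw [actN_X_of_dvd O pr hpr i h, actN_X_of_dvd O pr hpr i (Dvd.dvd.mul_right h (pr i₀))]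
      exact LevelU.cores_cohU hqN h ψ
    · rw [actN_X_of_not_dvd O pr hpr i h, actN_X_of_not_dvd O pr hpr i (hnd i hi h)]
      exact cores_cohT hqN (hnd i hi h) ψ
  · intro i hi ψ
    haveI : Fact (pr i).Prime := ⟨hpr i⟩
    rw [degen_coresD, degen_coresD]
    by_cases h : pr i ∣ N
    · rw [actN_X_of_dvd O pr hpr i h, actN_X_of_dvd O pr hpr i (Dvd.dvd.mul_right h (pr i₀))]
      exact LevelU.coresD_cohU hqN h ψ
    · rw [actN_X_of_not_dvd O pr hpr i h, actN_X_of_not_dvd O pr hpr i (hnd i hi h)]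
      exact Fermat.Agent.GM.B5.coresD_cohT hqN (hnd i hi h) ψ
  · intro ψ
    rw [degen_U, degen_cores, degen_coresD, cores_U hqN ψ, Nat.cast_smul_eq_nsmul O]
  · intro ψ
    rw [degen_U, degen_coresD, degen_coresD, degen_cores, degen_T, coresD_U hqN ψ]

end Compat

/-! ### finiteness -/

theorem finite_hom [IsNoetherianRing O] (N : ℕ) [NeZero N] :
    Module.Finite O (Additive (Gamma0 N) →+ O) :=
  Fermat.Agent.GB.B3.HomFree.homFinite_SL2Z (Gamma0 N) O

end Fermat.Agent.GB.B8.LevelGen
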