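/-
GATE-B (S38/S43) / node GB-B8-TWLEVEL, file 8 (helper49): **iteration over the Taylor–Wiles primes
and the seam to the base of the tower**.

* `TWCond pr lamBase lamTop α β s` : the residual conditions at the Taylor–Wiles symbol `s`
  (`lamBase X_s = ᾱ + β̄`, `lamTop X_s = ᾱ`, `ᾱ β̄ = pr s ≠ 0`, `ᾱ ≠ β̄`, `ᾱ² ≠ 1`, `β̄² ≠ 1`);
  `TWCond.of_eq_one` : the last three follow from `ᾱ ≠ β̄` when `pr s = 1` in `κ`;
* `exists_stage` : for a finite set `Q` of Taylor–Wiles symbols over ANY base level `M`,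
  `N = M * ∏ s ∈ Q, pr s`: the `ker lamBase`-primary part of `Hom(Γ₀(M), 𝒪)` is a `Stage` of
  `Hom(Γ₀(N), 𝒪)` at `ker lamTop`, Hecke-equivariantly up to a substitution `ρ` of the symbols in
  `Q` (`ρ X_s = X_s` off `Q`, `lamBase ∘ ρ = lamTop`) — `Finset` induction on
  `LevelStage.Stage.exists_next` with the concrete `LevelGen.compat`;
* `stageEquiv`, `stageEquiv_act` : a stage is an equivariant linear equivalence onto helper95's
  `Base.locSub`;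
* `actN_eq_act0` : for `Sy : Symbols N` the uniform action at level `N` IS helper80's
  `HeckeActH.act0 Sy O`;
* `exists_baseEquiv`, `card_basis_le` : the seam — `Base.locSub (act0 Sy 𝒪) (ker lamTop)` is the
  level-`M` primary part, and every basis of it has at most `finrank 𝒪 Hom(Γ₀(M), 𝒪)` elements
  (the bound `D` of the Taylor–Wiles system, independent of `Q`).
-/
import Mathlib
import Fermat.Agent.GB.B8.LevelGen
import Fermat.Agent.GB.B3.HeckeActH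
import Fermat.Agent.GB.B3.Base
import Fermat.Agent.GB.B3.BaseGamma0

set_option autoImplicit false
set_option linter.unusedSectionVars false
set_option linter.style.haveILetI false

open scoped MatrixGroups
open CongruenceSubgroup
open Fermat.Agent.GB.B8.LevelAbs Fermat.Agent.GB.B8.LevelGamma0 Fermat.Agent.GB.B8.LevelStage
  Fermat.Agent.GB.B8.LevelGen
open Fermat.Agent.GB.B3.RealLevel

namespace Fermat.Agent.GB.B8.LevelIter

open MvPolynomial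

/-! ### the Taylor–Wiles conditions -/

section Cond

variable {𝒪 : Type} [CommRing 𝒪] {σ : Type} (pr : σ → ℕ) {κ : Type} [Field κ] [Algebra 𝒪 κ]

/-- the residual conditions at the Taylor–Wiles symbol `s` -/
structure TWCond (lamBase lamTop : MvPolynomial σ 𝒪 →ₐ[𝒪] κ) (α β : σ → 𝒪) (s : σ) : Prop where
  base : lamBase (X s) = algebraMap 𝒪 κ (α s + β s)
  top : lamTop (X s) = algebraMap 𝒪 κ (α s)
  prod : algebraMap 𝒪 κ (α s * β s) = algebraMap 𝒪 κ ((pr s : ℕ) : 𝒪)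
  r_ne : algebraMap 𝒪 κ ((pr s : ℕ) : 𝒪) ≠ 0
  ne : algebraMap 𝒪 κ (α s) ≠ algebraMap 𝒪 κ (β s)
  sq_α : algebraMap 𝒪 κ (α s * α s) ≠ 1
  sq_β : algebraMap 𝒪 κ (β s * β s) ≠ 1

/-- at a prime which is `1` in `κ` only `ᾱ ≠ β̄` is needed -/
theorem TWCond.of_eq_one {lamBase lamTop : MvPolynomial σ 𝒪 →ₐ[𝒪] κ} {α β : σ → 𝒪} {s : σ}
    (hbase : lamBase (X s) = algebraMap 𝒪 κ (α s + β s))
    (htop : lamTop (X s) = algebraMap 𝒪 κ (α s))
    (hprod : algebraMap 𝒪 κ (α s * β s) = 1)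
    (hr : algebraMap 𝒪 κ ((pr s : ℕ) : 𝒪) = 1)
    (hne : algebraMap 𝒪 κ (α s) ≠ algebraMap 𝒪 κ (β s)) :
    TWCond pr lamBase lamTop α β s := by
  have hα0 : algebraMap 𝒪 κ (α s) ≠ 0 := by
    intro h
    rw [map_mul, h, zero_mul] at hprod
    exact zero_ne_one hprod
  have hβ0 : algebraMap 𝒪 κ (β s) ≠ 0 := by
    intro h
    rw [map_mul, h, mul_zero] at hprod
    exact zero_ne_one hprod
  refine ⟨hbase, htop, by rw [hprod, hr], by rw [hr]; exact one_ne_zero, hne, ?_, ?_⟩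
  · intro h
    apply hne
    rw [← hprod, map_mul, map_mul] at h
    exact mul_left_cancel₀ hα0 h
  · intro h
    apply hne
    rw [← hprod, map_mul, map_mul] at h
    exact (mul_right_cancel₀ hβ0 h).symm

end Cond

/-! ### the iteration -/

section Iter

variable {𝒪 : Type} [CommRing 𝒪] [IsLocalRing 𝒪] [IsNoetherianRing 𝒪]
  [IsAdicComplete (IsLocalRing.maximalIdeal 𝒪) 𝒪]
variable {σ : Type} [DecidableEq σ] (pr : σ → ℕ) (hpr : ∀ s, (pr s).Prime)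
variable {κ : Type} [Field κ] [Algebra 𝒪 κ]

/-- the kernel of a character is maximal when `𝒪 → κ` is onto -/
theorem ker_isMaximal (hsurj : Function.Surjective (algebraMap 𝒪 κ))
    (lam : MvPolynomial σ 𝒪 →ₐ[𝒪] κ) :
    (RingHom.ker (lam : MvPolynomial σ 𝒪 →+* κ)).IsMaximal := by
  refine RingHom.ker_isMaximal_of_surjective _ fun x => ?_
  obtain ⟨c, rfl⟩ := hsurj x
  exact ⟨C c, lam_C lam c⟩

include hpr in
/-- a new Taylor–Wiles prime does not divide the level reached so far -/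
theorem not_dvd_level (hinj : Function.Injective pr) {M : ℕ} {s₀ : σ} {Q : Finset σ}
    (hs₀ : s₀ ∉ Q) (hM : ¬ pr s₀ ∣ M) : ¬ pr s₀ ∣ M * ∏ s ∈ Q, pr s := by
  intro h
  rcases (Nat.Prime.dvd_mul (hpr s₀)).1 h with h1 | h1
  · exact hM h1
  · obtain ⟨s, hs, hd⟩ := (Prime.dvd_finsetProd_iff (Nat.Prime.prime (hpr s₀)) _).1 h1
    have h2 : pr s₀ = pr s := (Nat.prime_dvd_prime_iff_eq (hpr s₀) (hpr s)).1 hd
    exact hs₀ (hinj h2 ▸ hs)

/-- **Removing the Taylor–Wiles primes from the level**: the `ker lamBase`-primary part of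
`Hom(Γ₀(M), 𝒪)` is a stage of `Hom(Γ₀(M ∏_{s ∈ Q} pr s), 𝒪)` at `ker lamTop`. -/
theorem exists_stage (hinj : Function.Injective pr)
    (hsurj : Function.Surjective (algebraMap 𝒪 κ)) (M : ℕ) [NeZero M]
    (lamBase : MvPolynomial σ 𝒪 →ₐ[𝒪] κ) (α β : σ → 𝒪) (Q : Finset σ) :
    ∀ (N : ℕ) (lamTop : MvPolynomial σ 𝒪 →ₐ[𝒪] κ), N = M * ∏ s ∈ Q, pr s →
      (∀ s ∈ Q, ¬ pr s ∣ M) → (∀ s ∈ Q, TWCond pr lamBase lamTop α β s) →
      (∀ s, s ∉ Q → lamTop (X s) = lamBase (X s)) →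
      ∃ (S : Stage (MvPolynomial σ 𝒪) (Additive (Gamma0 N) →+ 𝒪) (actN 𝒪 pr hpr N)
          (RingHom.ker (lamTop : MvPolynomial σ 𝒪 →+* κ))
          (locSub (actN 𝒪 pr hpr M) (RingHom.ker (lamBase : MvPolynomial σ 𝒪 →+* κ))))
        (ρ : MvPolynomial σ 𝒪 →ₐ[𝒪] MvPolynomial σ 𝒪),
        S.actP = (locAct (actN 𝒪 pr hpr M)
            (RingHom.ker (lamBase : MvPolynomial σ 𝒪 →+* κ))).comp ρ ∧
        (∀ s, s ∉ Q → ρ (X s) = X s) ∧ lamBase.comp ρ = lamTop := by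
  classical
  refine Finset.induction_on Q ?_ ?_
  · intro N lamTop hN _ _ haway
    rw [Finset.prod_empty, mul_one] at hN
    subst hN
    have hlam : lamTop = lamBase :=
      MvPolynomial.algHom_ext fun s => haway s (Finset.notMem_empty s)
    subst hlam
    exact ⟨Stage.base _ _, AlgHom.id 𝒪 _, rfl, fun _ _ => rfl, rfl⟩
  · intro s₀ Q' hs₀ IH N lamTop hN hQM hTW haway
    haveI : Fact (pr s₀).Prime := ⟨hpr s₀⟩
    have hN2 : N = (M * ∏ s ∈ Q', pr s) * pr s₀ := by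
      rw [hN, Finset.prod_insert hs₀]
      ring
    clear hN
    subst hN2
    have hqN' : ¬ pr s₀ ∣ M * ∏ s ∈ Q', pr s :=
      not_dvd_level pr hpr hinj hs₀ (hQM s₀ (Finset.mem_insert_self _ _))
    have h0 := hTW s₀ (Finset.mem_insert_self _ _)
    -- the middle character
    obtain ⟨lamMid, hmid0, hmid⟩ : ∃ lamMid : MvPolynomial σ 𝒪 →ₐ[𝒪] κ,
        lamMid (X s₀) = algebraMap 𝒪 κ (α s₀ + β s₀) ∧
          ∀ s, s ≠ s₀ → lamMid (X s) = lamTop (X s) := by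
      refine ⟨aeval (Function.update (fun s => lamTop (X s)) s₀
        (algebraMap 𝒪 κ (α s₀ + β s₀))), ?_, ?_⟩
      · rw [aeval_X, Function.update_self]
      · intro s hs
        rw [aeval_X, Function.update_of_ne hs]
    have hTW' : ∀ s ∈ Q', TWCond pr lamBase lamMid α β s := by
      intro s hs
      have hne : s ≠ s₀ := fun h => hs₀ (h ▸ hs)
      have h := hTW s (Finset.mem_insert_of_mem hs)
      exact ⟨h.base, (hmid s hne).trans h.top, h.prod, h.r_ne, h.ne, h.sq_α, h.sq_β⟩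
    have haway' : ∀ s, s ∉ Q' → lamMid (X s) = lamBase (X s) := by
      intro s hs
      by_cases h : s = s₀
      · subst h
        rw [hmid0]
        exact h0.base.symm
      · rw [hmid s h]
        refine haway s fun hmem => ?_
        rcases Finset.mem_insert.1 hmem with h1 | h1
        · exact h h1
        · exact hs h1
    obtain ⟨S', ρ', hact', hρ', hlam'⟩ := IH (M * ∏ s ∈ Q', pr s) lamMid rfl
      (fun s hs => hQM s (Finset.mem_insert_of_mem hs)) hTW' haway'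
    have hR : Resid s₀ lamMid lamTop ((pr s₀ : ℕ) : 𝒪) (α s₀) (β s₀) :=
      ⟨fun i hi => (hmid i hi).symm, hmid0, h0.top, h0.prod, h0.r_ne, h0.ne, h0.sq_α, h0.sq_β⟩
    have hC : Compat s₀ (degen hqN' 𝒪 𝒪) (actN 𝒪 pr hpr (M * ∏ s ∈ Q', pr s))
        (actN 𝒪 pr hpr ((M * ∏ s ∈ Q', pr s) * pr s₀)) := compat 𝒪 pr hpr hinj s₀ hqN'
    haveI hne1 : NeZero (M * ∏ s ∈ Q', pr s) :=
      ⟨Nat.mul_ne_zero (NeZero.ne M) (Finset.prod_ne_zero_iff.2 fun s _ => (hpr s).ne_zero)⟩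
    haveI hne2 : NeZero ((M * ∏ s ∈ Q', pr s) * pr s₀) :=
      ⟨Nat.mul_ne_zero (NeZero.ne _) (hpr s₀).ne_zero⟩
    haveI := finite_hom 𝒪 (M * ∏ s ∈ Q', pr s)
    haveI := finite_hom 𝒪 ((M * ∏ s ∈ Q', pr s) * pr s₀)
    haveI := ker_isMaximal hsurj lamMid
    haveI := ker_isMaximal hsurj lamTop
    obtain ⟨S1, ρ1, hact1, hρ1, hlam1, -, -⟩ := Stage.exists_next hC hR S'
    refine ⟨S1, ρ'.comp ρ1, ?_, ?_, ?_⟩
    · rw [hact1, hact']
      rfl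
    · intro s hs
      have hne : s ≠ s₀ := fun h => hs (h ▸ Finset.mem_insert_self _ _)
      have hnQ : s ∉ Q' := fun h => hs (Finset.mem_insert_of_mem h)
      rw [AlgHom.comp_apply, hρ1 s hne, hρ' s hnQ]
    · rw [← AlgHom.comp_assoc, hlam', hlam1]

end Iter

/-! ### stages are equivalences onto `Base.locSub` -/

section Equiv

variable {𝒪 : Type} [CommRing 𝒪] {𝕋 : Type} [CommRing 𝕋] [Algebra 𝒪 𝕋]
  {L : Type*} [AddCommGroup L] [Module 𝒪 L] {act : 𝕋 →ₐ[𝒪] Module.End 𝒪 L} {𝔪 : Ideal 𝕋}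
  {P : Type*} [AddCommGroup P] [Module 𝒪 P]

/-- a stage is a linear equivalence onto the primary part -/
noncomputable def stageEquiv (S : Stage 𝕋 L act 𝔪 P) :
    P ≃ₗ[𝒪] Fermat.Agent.GB.B3.Base.locSub act 𝔪 :=
  LinearEquiv.ofBijective
    (S.j.codRestrict (Fermat.Agent.GB.B3.Base.locSub act 𝔪) fun y => (S.range _).1 ⟨y, rfl⟩)
    ⟨fun a b h => S.inj (congrArg Subtype.val h), fun x => by
      obtain ⟨y, hy⟩ := (S.range x.1).2 x.2
      exact ⟨y, Subtype.ext hy⟩⟩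

@[simp] theorem coe_stageEquiv (S : Stage 𝕋 L act 𝔪 P) (y : P) :
    ((stageEquiv S y : Fermat.Agent.GB.B3.Base.locSub act 𝔪) : L) = S.j y := rfl

theorem stageEquiv_act (S : Stage 𝕋 L act 𝔪 P) (t : 𝕋) (y : P) :
    stageEquiv S (S.actP t y)
      = Fermat.Agent.GB.B3.Base.locSubAct act 𝔪 t (stageEquiv S y) :=
  Subtype.ext (S.j_act t y)

end Equiv

/-! ### the seam to helper80's action and helper95's base -/

section Seam

open Fermat.Agent.GB.B3.HeckeActH Fermat.Agent.GB.B3.Base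

variable {N : ℕ} (Sy : Symbols N)

/-- the prime of a symbol -/
def prSy : Sy.ι₁ ⊕ Sy.ι₂ → ℕ := Sum.elim Sy.ℓ Sy.r

@[simp] theorem prSy_inl (i : Sy.ι₁) : prSy Sy (Sum.inl i) = Sy.ℓ i := rfl

@[simp] theorem prSy_inr (j : Sy.ι₂) : prSy Sy (Sum.inr j) = Sy.r j := rfl

theorem prSy_prime (s : Sy.ι₁ ⊕ Sy.ι₂) : (prSy Sy s).Prime := by
  rcases s with i | j
  · exact Sy.hℓ i
  · exact Sy.hr j

theorem prSy_injective (hℓ : Function.Injective Sy.ℓ) (hr : Function.Injective Sy.r) :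
    Function.Injective (prSy Sy) := by
  rintro (i | j) (i' | j') h
  · exact congrArg Sum.inl (hℓ h)
  · exact absurd (show Sy.ℓ i ∣ N from (show Sy.ℓ i = Sy.r j' from h) ▸ Sy.hrN j') (Sy.hℓN i)
  · exact absurd (show Sy.ℓ i' ∣ N from (show Sy.r j = Sy.ℓ i' from h) ▸ Sy.hrN j) (Sy.hℓN i')
  · exact congrArg Sum.inr (hr h)

/-- **the uniform action at the level of the symbols is helper80's `act0`** -/
theorem actN_eq_act0 (O : Type) [CommRing O] :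
    actN O (prSy Sy) (prSy_prime Sy) N = act0 Sy O := by
  refine MvPolynomial.algHom_ext fun s => LinearMap.ext fun φ => ?_
  rcases s with i | j
  · exact (actN_X_of_not_dvd O (prSy Sy) (prSy_prime Sy) (Sum.inl i) (Sy.hℓN i) φ).trans
      (act0_X_inl Sy O i φ).symm
  · exact (actN_X_of_dvd O (prSy Sy) (prSy_prime Sy) (Sum.inr j) (Sy.hrN j) φ).trans
      (act0_X_inr Sy O j φ).symm

variable {𝒪 : Type} [CommRing 𝒪] [IsLocalRing 𝒪] [IsNoetherianRing 𝒪]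
  [IsAdicComplete (IsLocalRing.maximalIdeal 𝒪) 𝒪]
variable {κ : Type} [Field κ] [Algebra 𝒪 κ]
variable [DecidableEq Sy.ι₁] [DecidableEq Sy.ι₂]

/-- **THE SEAM (B8 → B3 base).**  For Hecke symbols `Sy` at the level `N = M ∏_{s ∈ Q} pr s`: the
`ker lamTop`-primary part of `Hom(Γ₀(N), 𝒪)` (the base module of the Taylor–Wiles tower) is the
`ker lamBase`-primary part of `Hom(Γ₀(M), 𝒪)`, equivariantly up to the substitution `ρ`. -/
theorem exists_baseEquiv (hℓ : Function.Injective Sy.ℓ) (hr : Function.Injective Sy.r)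
    (hsurj : Function.Surjective (algebraMap 𝒪 κ)) (M : ℕ) [NeZero M]
    (lamBase lamTop : Sy.𝕋 𝒪 →ₐ[𝒪] κ) (α β : Sy.ι₁ ⊕ Sy.ι₂ → 𝒪) (Q : Finset (Sy.ι₁ ⊕ Sy.ι₂))
    (hN : N = M * ∏ s ∈ Q, prSy Sy s) (hQM : ∀ s ∈ Q, ¬ prSy Sy s ∣ M)
    (hTW : ∀ s ∈ Q, TWCond (prSy Sy) lamBase lamTop α β s)
    (haway : ∀ s, s ∉ Q → lamTop (X s) = lamBase (X s)) :
    ∃ (e : LevelStage.locSub (actN 𝒪 (prSy Sy) (prSy_prime Sy) M)
          (RingHom.ker (lamBase : Sy.𝕋 𝒪 →+* κ)) ≃ₗ[𝒪]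
          Fermat.Agent.GB.B3.Base.locSub (act0 Sy 𝒪) (RingHom.ker (lamTop : Sy.𝕋 𝒪 →+* κ)))
      (ρ : Sy.𝕋 𝒪 →ₐ[𝒪] Sy.𝕋 𝒪),
      (∀ t y, e (locAct (actN 𝒪 (prSy Sy) (prSy_prime Sy) M)
          (RingHom.ker (lamBase : Sy.𝕋 𝒪 →+* κ)) (ρ t) y)
        = Fermat.Agent.GB.B3.Base.locSubAct (act0 Sy 𝒪) (RingHom.ker (lamTop : Sy.𝕋 𝒪 →+* κ)) t (e y)) ∧
      (∀ s, s ∉ Q → ρ (X s) = X s) ∧ lamBase.comp ρ = lamTop := by
  have key := exists_stage (prSy Sy) (prSy_prime Sy)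
    (prSy_injective Sy hℓ hr) hsurj M lamBase α β Q N lamTop hN hQM hTW haway
  rw [actN_eq_act0 Sy 𝒪] at key
  obtain ⟨S, ρ, hact, hρ, hlam⟩ := key
  refine ⟨stageEquiv S, ρ, fun t y => ?_, hρ, hlam⟩
  rw [← stageEquiv_act S t y, hact]
  rfl

/-- **THE BOUND `D`** (independent of the Taylor–Wiles set): every basis of the base module of the
tower has at most `finrank 𝒪 Hom(Γ₀(M), 𝒪)` elements. -/
theorem card_basis_le (hℓ : Function.Injective Sy.ℓ) (hr : Function.Injective Sy.r)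
    (hsurj : Function.Surjective (algebraMap 𝒪 κ)) (M : ℕ) [NeZero M]
    (lamBase lamTop : Sy.𝕋 𝒪 →ₐ[𝒪] κ) (α β : Sy.ι₁ ⊕ Sy.ι₂ → 𝒪) (Q : Finset (Sy.ι₁ ⊕ Sy.ι₂))
    (hN : N = M * ∏ s ∈ Q, prSy Sy s) (hQM : ∀ s ∈ Q, ¬ prSy Sy s ∣ M)
    (hTW : ∀ s ∈ Q, TWCond (prSy Sy) lamBase lamTop α β s)
    (haway : ∀ s, s ∉ Q → lamTop (X s) = lamBase (X s))
    (𝔪 : Ideal (Sy.𝕋 𝒪)) (h𝔪 : 𝔪 = RingHom.ker (lamTop : Sy.𝕋 𝒪 →+* κ)) {d : ℕ}
    (b : Module.Basis (Fin d) 𝒪 (Fermat.Agent.GB.B3.Base.locSub (act0 Sy 𝒪) 𝔪)) :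
    d ≤ Module.finrank 𝒪 (Additive (Gamma0 M) →+ 𝒪) := by
  subst h𝔪
  obtain ⟨e, -⟩ := exists_baseEquiv Sy hℓ hr hsurj M lamBase lamTop α β Q hN hQM hTW haway
  haveI := finite_hom 𝒪 M
  calc d = Module.finrank 𝒪 (Fermat.Agent.GB.B3.Base.locSub (act0 Sy 𝒪)
        (RingHom.ker (lamTop : Sy.𝕋 𝒪 →+* κ))) := by
        rw [Module.finrank_eq_card_basis b, Fintype.card_fin]
    _ = Module.finrank 𝒪 (LevelStage.locSub (actN 𝒪 (prSy Sy) (prSy_prime Sy) M)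
        (RingHom.ker (lamBase : Sy.𝕋 𝒪 →+* κ))) := (LinearEquiv.finrank_eq e).symm
    _ ≤ Module.finrank 𝒪 (Additive (Gamma0 M) →+ 𝒪) := Submodule.finrank_le _

/-- the same bound for the base of the tower in its `Γ_H` form (`θ` with trivial target), i.e. for
helper95's `Final.M0` -/
theorem card_basis_le_H (hℓ : Function.Injective Sy.ℓ) (hr : Function.Injective Sy.r)
    (hsurj : Function.Surjective (algebraMap 𝒪 κ)) (M : ℕ) [NeZero M]
    (lamBase lamTop : Sy.𝕋 𝒪 →ₐ[𝒪] κ) (α β : Sy.ι₁ ⊕ Sy.ι₂ → 𝒪) (Q : Finset (Sy.ι₁ ⊕ Sy.ι₂))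
    (hN : N = M * ∏ s ∈ Q, prSy Sy s) (hQM : ∀ s ∈ Q, ¬ prSy Sy s ∣ M)
    (hTW : ∀ s ∈ Q, TWCond (prSy Sy) lamBase lamTop α β s)
    (haway : ∀ s, s ∉ Q → lamTop (X s) = lamBase (X s))
    (𝔪 : Ideal (Sy.𝕋 𝒪)) (h𝔪 : 𝔪 = RingHom.ker (lamTop : Sy.𝕋 𝒪 →+* κ))
    {Δ : Type} [CommGroup Δ] [Subsingleton Δ] (θ : (ZMod N)ˣ →* Δ) {d : ℕ}
    (b : Module.Basis (Fin d) 𝒪 (Fermat.Agent.GB.B3.Base.locSub (actH Sy 𝒪 θ) 𝔪)) :
    d ≤ Module.finrank 𝒪 (Additive (Gamma0 M) →+ 𝒪) :=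
  card_basis_le Sy hℓ hr hsurj M lamBase lamTop α β Q hN hQM hTW haway 𝔪 h𝔪
    (b.map (Fermat.Agent.GB.B3.BaseGamma0.baseEquiv Sy 𝔪 θ).symm)

end Seam

end Fermat.Agent.GB.B8.LevelIter
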