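/-
GATE-B (S38/S43) / node GB-B8-TWLEVEL, file 9 (helper49): **the rank of the base of the Taylor–Wiles
tower**, in the exact vocabulary of helper95's `GB/B3/Plug.lean`
(`Module.finrank O (Base.locSub (HeckeActH.act0 Sy O) 𝔪)`) and of helper21's `d_pos` plug.

With the standing hypotheses of `LevelIter.exists_baseEquiv` (level `N = M ∏_{s ∈ Q} pr s`):

* `finrank_locSub_eq` : `finrank (Hom(Γ₀(N), 𝒪)_𝔪) = finrank (Hom(Γ₀(M), 𝒪)_{ker lamBase})`;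
* `finrank_locSub_le` : `finrank (Hom(Γ₀(N), 𝒪)_𝔪) ≤ finrank 𝒪 Hom(Γ₀(M), 𝒪)` — THE BOUND `D`;
* `exists_isLoc_ne_zero_top` : a non-zero `ker lamBase`-primary element at level `M` gives a
  non-zero `𝔪`-primary element at level `N` (input of `DPosPlug.d_pos_of_realizes`);
* `actN_X_eq_cohGen`, `exists_isLoc_ne_zero_of_hres` : the same from `hres`
  (`W.IsResiduallyModularOfLevel p M`) when all symbols are good primes for `W` prime to `M p`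
  (helper21's `DPosPlug.exists_isLoc_ne_zero` at level `M`).
-/
import Mathlib
import Fermat.Agent.GB.B8.LevelIter
import Fermat.Agent.GB.Setup.DPosPlug

set_option autoImplicit false
set_option linter.unusedSectionVars false
set_option linter.style.haveILetI false

open scoped MatrixGroups
open CongruenceSubgroup
open Fermat.Agent.S16_helper49
open Fermat.Agent.GB.B8.LevelStage Fermat.Agent.GB.B8.LevelGen Fermat.Agent.GB.B8.LevelIter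
open Fermat.Agent.GB.B3.RealLevel Fermat.Agent.GB.B3.HeckeActH

namespace Fermat.Agent.GB.B8.LevelRank

open MvPolynomial

/-! ### the uniform action in `cohGen` form -/

section Gen

variable (O : Type) [CommRing O] {σ : Type} (pr : σ → ℕ) (hpr : ∀ s, (pr s).Prime)

theorem actN_X_eq_cohGen (M : ℕ) [NeZero M] (s : σ) (φ : Additive (Gamma0 M) →+ O) :
    actN O pr hpr M (X s) φ = cohGen M O ⟨pr s, hpr s⟩ φ := by
  haveI : Fact (pr s).Prime := ⟨hpr s⟩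
  by_cases h : pr s ∣ M
  · rw [actN_X_of_dvd O pr hpr s h, cohGen_of_dvd M O ⟨pr s, hpr s⟩ h]
  · rw [actN_X_of_not_dvd O pr hpr s h, cohGen_of_not_dvd M O ⟨pr s, hpr s⟩ h]

end Gen

section Rank

variable {N : ℕ} (Sy : Symbols N)
variable {𝒪 : Type} [CommRing 𝒪] [IsLocalRing 𝒪] [IsNoetherianRing 𝒪]
  [IsAdicComplete (IsLocalRing.maximalIdeal 𝒪) 𝒪]
variable {κ : Type} [Field κ] [Algebra 𝒪 κ]
variable [DecidableEq Sy.ι₁] [DecidableEq Sy.ι₂]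

/-- the rank of the base of the tower is the rank of the level-`M` primary part -/
theorem finrank_locSub_eq (hℓ : Function.Injective Sy.ℓ) (hr : Function.Injective Sy.r)
    (hsurj : Function.Surjective (algebraMap 𝒪 κ)) (M : ℕ) [NeZero M]
    (lamBase lamTop : Sy.𝕋 𝒪 →ₐ[𝒪] κ) (α β : Sy.ι₁ ⊕ Sy.ι₂ → 𝒪) (Q : Finset (Sy.ι₁ ⊕ Sy.ι₂))
    (hN : N = M * ∏ s ∈ Q, prSy Sy s) (hQM : ∀ s ∈ Q, ¬ prSy Sy s ∣ M)
    (hTW : ∀ s ∈ Q, TWCond (prSy Sy) lamBase lamTop α β s)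
    (haway : ∀ s, s ∉ Q → lamTop (X s) = lamBase (X s))
    (𝔪 : Ideal (Sy.𝕋 𝒪)) (h𝔪 : 𝔪 = RingHom.ker (lamTop : Sy.𝕋 𝒪 →+* κ)) :
    Module.finrank 𝒪 (Fermat.Agent.GB.B3.Base.locSub (act0 Sy 𝒪) 𝔪)
      = Module.finrank 𝒪 (LevelStage.locSub (actN 𝒪 (prSy Sy) (prSy_prime Sy) M)
          (RingHom.ker (lamBase : Sy.𝕋 𝒪 →+* κ))) := by
  subst h𝔪
  obtain ⟨e, -⟩ := exists_baseEquiv Sy hℓ hr hsurj M lamBase lamTop α β Q hN hQM hTW haway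
  exact (LinearEquiv.finrank_eq e).symm

/-- **THE BOUND `D`**: `rank_𝒪 Hom(Γ₀(N_Q), 𝒪)_{𝔪_Q} ≤ rank_𝒪 Hom(Γ₀(M), 𝒪)`, uniformly in `Q` -/
theorem finrank_locSub_le (hℓ : Function.Injective Sy.ℓ) (hr : Function.Injective Sy.r)
    (hsurj : Function.Surjective (algebraMap 𝒪 κ)) (M : ℕ) [NeZero M]
    (lamBase lamTop : Sy.𝕋 𝒪 →ₐ[𝒪] κ) (α β : Sy.ι₁ ⊕ Sy.ι₂ → 𝒪) (Q : Finset (Sy.ι₁ ⊕ Sy.ι₂))
    (hN : N = M * ∏ s ∈ Q, prSy Sy s) (hQM : ∀ s ∈ Q, ¬ prSy Sy s ∣ M)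
    (hTW : ∀ s ∈ Q, TWCond (prSy Sy) lamBase lamTop α β s)
    (haway : ∀ s, s ∉ Q → lamTop (X s) = lamBase (X s))
    (𝔪 : Ideal (Sy.𝕋 𝒪)) (h𝔪 : 𝔪 = RingHom.ker (lamTop : Sy.𝕋 𝒪 →+* κ)) :
    Module.finrank 𝒪 (Fermat.Agent.GB.B3.Base.locSub (act0 Sy 𝒪) 𝔪)
      ≤ Module.finrank 𝒪 (Additive (Gamma0 M) →+ 𝒪) := by
  rw [finrank_locSub_eq Sy hℓ hr hsurj M lamBase lamTop α β Q hN hQM hTW haway 𝔪 h𝔪]
  haveI := finite_hom 𝒪 M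
  exact Submodule.finrank_le _

/-- a non-zero primary element at level `M` gives a non-zero primary element at level `N` -/
theorem exists_isLoc_ne_zero_top (hℓ : Function.Injective Sy.ℓ) (hr : Function.Injective Sy.r)
    (hsurj : Function.Surjective (algebraMap 𝒪 κ)) (M : ℕ) [NeZero M]
    (lamBase lamTop : Sy.𝕋 𝒪 →ₐ[𝒪] κ) (α β : Sy.ι₁ ⊕ Sy.ι₂ → 𝒪) (Q : Finset (Sy.ι₁ ⊕ Sy.ι₂))
    (hN : N = M * ∏ s ∈ Q, prSy Sy s) (hQM : ∀ s ∈ Q, ¬ prSy Sy s ∣ M)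
    (hTW : ∀ s ∈ Q, TWCond (prSy Sy) lamBase lamTop α β s)
    (haway : ∀ s, s ∉ Q → lamTop (X s) = lamBase (X s))
    (𝔪 : Ideal (Sy.𝕋 𝒪)) (h𝔪 : 𝔪 = RingHom.ker (lamTop : Sy.𝕋 𝒪 →+* κ))
    (h : ∃ y : Additive (Gamma0 M) →+ 𝒪, y ≠ 0 ∧
      IsLoc (actN 𝒪 (prSy Sy) (prSy_prime Sy) M) (RingHom.ker (lamBase : Sy.𝕋 𝒪 →+* κ)) y) :
    ∃ x : Additive (Gamma0 N) →+ 𝒪, x ≠ 0 ∧ IsLoc (act0 Sy 𝒪) 𝔪 x := by
  subst h𝔪
  obtain ⟨e, -⟩ := exists_baseEquiv Sy hℓ hr hsurj M lamBase lamTop α β Q hN hQM hTW haway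
  obtain ⟨y, hy0, hy⟩ := h
  refine ⟨(e ⟨y, hy⟩ : Fermat.Agent.GB.B3.Base.locSub (act0 Sy 𝒪) _), fun h0 => hy0 ?_,
    (e ⟨y, hy⟩).2⟩
  have h1 : e ⟨y, hy⟩ = 0 := Subtype.ext h0
  have h2 : (⟨y, hy⟩ : LevelStage.locSub (actN 𝒪 (prSy Sy) (prSy_prime Sy) M)
      (RingHom.ker (lamBase : Sy.𝕋 𝒪 →+* κ))) = 0 := e.map_eq_zero_iff.1 h1
  exact congrArg Subtype.val h2

/-- **`d_pos` at the top of the tower from `hres` at level `M`** (all symbols at good primes for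
`W`, prime to `M p`; `lamBase X_s = a_{pr s}(W)`). -/
theorem exists_isLoc_ne_zero_of_hres [Module.IsTorsionFree ℤ 𝒪]
    (hℓ : Function.Injective Sy.ℓ) (hr : Function.Injective Sy.r)
    (hsurj : Function.Surjective (algebraMap 𝒪 κ)) (M : ℕ) [NeZero M]
    (lamBase lamTop : Sy.𝕋 𝒪 →ₐ[𝒪] κ) (α β : Sy.ι₁ ⊕ Sy.ι₂ → 𝒪) (Q : Finset (Sy.ι₁ ⊕ Sy.ι₂))
    (hN : N = M * ∏ s ∈ Q, prSy Sy s) (hQM : ∀ s ∈ Q, ¬ prSy Sy s ∣ M)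
    (hTW : ∀ s ∈ Q, TWCond (prSy Sy) lamBase lamTop α β s)
    (haway : ∀ s, s ∉ Q → lamTop (X s) = lamBase (X s))
    (𝔪 : Ideal (Sy.𝕋 𝒪)) (h𝔪 : 𝔪 = RingHom.ker (lamTop : Sy.𝕋 𝒪 →+* κ))
    {p : ℕ} (hp : p.Prime) (W : WeierstrassCurve ℤ)
    (hres : W.IsResiduallyModularOfLevel p M)
    (hgood : ∀ s, W.IsGoodPrimeFor (prSy Sy s) ∧ ¬ (prSy Sy s ∣ M) ∧ prSy Sy s ≠ p)
    (hκp : ((p : ℕ) : κ) = 0)
    (hX : ∀ s, lamBase (X s) = ((W.apOfModel (prSy Sy s) : ℤ) : κ)) :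
    ∃ x : Additive (Gamma0 N) →+ 𝒪, x ≠ 0 ∧ IsLoc (act0 Sy 𝒪) 𝔪 x := by
  refine exists_isLoc_ne_zero_top Sy hℓ hr hsurj M lamBase lamTop α β Q hN hQM hTW haway 𝔪 h𝔪 ?_
  haveI := ker_isMaximal hsurj lamBase
  exact Fermat.Agent.GB.Setup.DPosPlug.exists_isLoc_ne_zero
    (fun s => (⟨prSy Sy s, prSy_prime Sy s⟩ : Nat.Primes)) hp W hres hgood
    (actN 𝒪 (prSy Sy) (prSy_prime Sy) M)
    (fun s φ => actN_X_eq_cohGen 𝒪 (prSy Sy) (prSy_prime Sy) M s φ)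
    (lamBase : Sy.𝕋 𝒪 →+* κ) hκp hX _ rfl

end Rank

end Fermat.Agent.GB.B8.LevelRank
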